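import Fermat.Agent.SetsOfMultiples.DavenportErdos
import Fermat.Agent.ErdosKac.Mertens
import Mathlib.Data.Nat.Totient

/-!
# Erdős's theorem on primitive sets

For a primitive set the sets `a b`, `b` without prime factor below the largest one of `a`, are
disjoint, and they have density `(1 / a) ∏ (1 - 1 / p) ≫ 1 / (a log a)`.
-/

set_option autoImplicit false

noncomputable section

namespace FA.SetsOfMultiples

open Finset Filter
open scoped Topology

/-- No element divides another. -/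
def IsPrimitiveSet (A : Set ℕ) : Prop := ∀ a ∈ A, ∀ b ∈ A, a ∣ b → a = b

/-- The largest prime factor. -/
def topPrime (a : ℕ) : ℕ := a.primeFactors.sup id

/-- The product of the primes below the largest prime factor. -/
def belowTop (a : ℕ) : ℕ := ∏ p ∈ (range (topPrime a)).filter Nat.Prime, p

theorem belowTop_pos (a : ℕ) : 0 < belowTop a := prod_pos fun _ hp => (mem_filter.1 hp).2.pos

theorem le_topPrime {a p : ℕ} (hp : p ∈ a.primeFactors) : p ≤ topPrime a := le_sup (f := id) hp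

theorem topPrime_prime {a : ℕ} (ha : 2 ≤ a) : (topPrime a).Prime ∧ topPrime a ∣ a := by
  obtain ⟨p, hp, hpe⟩ := exists_mem_eq_sup _ (Nat.nonempty_primeFactors.2 ha) id
  rw [topPrime, hpe]
  exact ⟨Nat.prime_of_mem_primeFactors hp, Nat.dvd_of_mem_primeFactors hp⟩

/-- The multiples claimed by `a`. -/
def claimed (a N : ℕ) : Finset ℕ :=
  ((Icc 1 (N / a)).filter fun b => (belowTop a).Coprime b).image (a * ·)

theorem card_claimed {a : ℕ} (ha : 0 < a) (q : ℕ) :
    (claimed a (q * belowTop a * a)).card = q * (belowTop a).totient := by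
  rw [claimed, card_image_of_injective _ (mul_right_injective₀ ha.ne'), Nat.mul_div_cancel _ ha]
  induction q with
  | zero => simp
  | succ q ih =>
    have e : Icc 1 ((q + 1) * belowTop a) =
        Icc 1 (q * belowTop a) ∪ Ico (q * belowTop a + 1) (q * belowTop a + 1 + belowTop a) := by
      ext n
      simp only [mem_union, mem_Icc, mem_Ico, add_mul, one_mul]
      omega
    rw [e, filter_union, card_union_of_disjoint, ih, Nat.filter_coprime_Ico_eq_totient]
    · ring
    · refine Finset.disjoint_filter_filter (Finset.disjoint_left.2 fun n hn hn' => ?_)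
      simp only [mem_Icc, mem_Ico] at hn hn'
      omega

theorem factorization_eq_of_claimed {a b c N : ℕ} (h : c ∈ claimed a N) (h' : c ∈ claimed b N)
    (hle : topPrime a ≤ topPrime b) (p : ℕ) (hp : p < topPrime a) :
    a.factorization p = b.factorization p := by
  by_cases hpp : p.Prime
  swap
  · rw [Nat.factorization_eq_zero_of_not_prime _ hpp, Nat.factorization_eq_zero_of_not_prime _ hpp]
  have key : ∀ {x : ℕ}, c ∈ claimed x N → p < topPrime x →
      x.factorization p = c.factorization p := fun {x} hx hpx => by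
    obtain ⟨k, hk, rfl⟩ := mem_image.1 hx
    obtain ⟨hk, hco⟩ := mem_filter.1 hk
    have hk1 := (mem_Icc.1 hk).1
    rcases Nat.eq_zero_or_pos x with rfl | hx0
    · simp
    have hnd : ¬p ∣ k := fun hpk => hpp.not_dvd_one (hco ▸ Nat.dvd_gcd
      (dvd_prod_of_mem (fun p : ℕ => p) (mem_filter.2 ⟨mem_range.2 hpx, hpp⟩)) hpk)
    rw [Nat.factorization_mul hx0.ne' (by omega), Finsupp.add_apply,
      Nat.factorization_eq_zero_of_not_dvd hnd, add_zero]
  rw [key h hp, key h' (hp.trans_le hle)]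

/-- Two elements claiming the same integer divide one another. -/
theorem dvd_or_dvd_of_claimed {a b c N : ℕ} (ha : 2 ≤ a) (hb : 2 ≤ b) (h : c ∈ claimed a N)
    (h' : c ∈ claimed b N) (hle : topPrime a ≤ topPrime b) : a ∣ b ∨ b ∣ a := by
  have habove : ∀ p, topPrime a < p → a.factorization p = 0 := fun p hp => by
    by_contra hne
    exact absurd (le_topPrime (Finsupp.mem_support_iff.2 hne)) (not_le.2 hp)
  obtain ⟨P, hP⟩ : ∃ P, P = topPrime a := ⟨_, rfl⟩
  rcases le_or_gt (a.factorization P) (b.factorization P) with h1 | h1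
  · left
    rw [← Nat.factorization_le_iff_dvd (by omega) (by omega)]
    intro p
    rcases lt_trichotomy p P with h2 | h2 | h2
    · exact (factorization_eq_of_claimed h h' hle p (hP ▸ h2)).le
    · exact h2 ▸ h1
    · rw [habove p (hP ▸ h2)]
      exact Nat.zero_le _
  · right
    rw [← Nat.factorization_le_iff_dvd (by omega) (by omega)]
    intro p
    have hPb : topPrime b = P := by
      refine le_antisymm (not_lt.1 fun hlt => ?_) (hP ▸ hle)
      obtain ⟨k, hk, hck⟩ := mem_image.1 h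
      obtain ⟨l, hl, hcl⟩ := mem_image.1 h'
      have hP' := (topPrime_prime ha).1
      rw [← hP] at hP'
      have hnd : ¬P ∣ l := fun hPl => hP'.not_dvd_one ((mem_filter.1 hl).2 ▸ Nat.dvd_gcd
        (dvd_prod_of_mem (fun p : ℕ => p) (mem_filter.2 ⟨mem_range.2 hlt, hP'⟩)) hPl)
      have hk1 := (mem_Icc.1 (mem_filter.1 hk).1).1
      have hl1 := (mem_Icc.1 (mem_filter.1 hl).1).1
      have e := congrArg (fun n => n.factorization P) (hck.trans hcl.symm)
      simp only [Nat.factorization_mul (show a ≠ 0 by omega) (show k ≠ 0 by omega),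
        Nat.factorization_mul (show b ≠ 0 by omega) (show l ≠ 0 by omega), Finsupp.add_apply,
        Nat.factorization_eq_zero_of_not_dvd hnd] at e
      omega
    rcases lt_trichotomy p P with h2 | h2 | h2
    · exact (factorization_eq_of_claimed h h' hle p (hP ▸ h2)).ge
    · exact h2 ▸ h1.le
    · refine le_of_eq_of_le ?_ (Nat.zero_le _)
      by_contra hne
      exact absurd (le_topPrime (Finsupp.mem_support_iff.2 hne)) (not_le.2 (hPb ▸ h2))

/-- The share claimed by `a`. -/
theorem exists_share_le : ∃ c : ℝ, 0 < c ∧ ∀ a : ℕ, 2 ≤ a →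
    c / Real.log a ≤ ((belowTop a).totient : ℝ) / belowTop a := by
  obtain ⟨B, hB⟩ := ErdosKac.exists_abs_recipSum_sub_le
  refine ⟨Real.exp (-(B + 2)), Real.exp_pos _, fun a ha => ?_⟩
  obtain ⟨hP, hPd⟩ := topPrime_prime ha
  obtain ⟨P, hPdef⟩ : ∃ P, P = topPrime a := ⟨_, rfl⟩
  rw [← hPdef] at hP hPd
  obtain ⟨S, hS⟩ : ∃ S, S = (range P).filter Nat.Prime := ⟨_, rfl⟩
  have hSp : ∀ p ∈ S, p.Prime := fun p hp => (mem_filter.1 (hS ▸ hp)).2
  have hQ : belowTop a = ∏ p ∈ S, p := by rw [belowTop, ← hPdef, hS]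
  have hQ0 : (0 : ℝ) < belowTop a := Nat.cast_pos.2 (belowTop_pos a)
  have hφ : ((belowTop a).totient : ℝ) / belowTop a = ∏ p ∈ S, (1 - ((p : ℝ))⁻¹) := by
    have h := Nat.totient_eq_mul_prod_factors (belowTop a)
    rw [hQ, Nat.primeFactors_prod hSp] at h
    have h' := congrArg (fun q : ℚ => (q : ℝ)) h
    push_cast at h'
    have hne : (∏ p ∈ S, (p : ℝ)) ≠ 0 :=
      prod_ne_zero_iff.2 fun p hp => Nat.cast_ne_zero.2 (hSp p hp).ne_zero
    rw [hQ, h', Nat.cast_prod, mul_div_cancel_left₀ _ hne]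
  have hterm : ∀ p ∈ S, Real.exp (-(((p : ℝ))⁻¹ + 2 * ((p : ℝ) ^ 2)⁻¹)) ≤ 1 - ((p : ℝ))⁻¹ := by
    intro p hp
    have hp2 : (2 : ℝ) ≤ p := Nat.ofNat_le_cast.2 (hSp p hp).two_le
    obtain ⟨x, hx⟩ : ∃ x : ℝ, x = ((p : ℝ))⁻¹ := ⟨_, rfl⟩
    have hx0 : 0 < x := hx ▸ by positivity
    have hx2 : x ≤ 1 / 2 := hx ▸ by rw [one_div]; exact inv_anti₀ two_pos hp2
    rw [← inv_pow, ← hx, ← Real.le_log_iff_exp_le (by linarith)]
    refine le_trans ?_ (Real.one_sub_inv_le_log_of_pos (by linarith))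
    have h1 : (0 : ℝ) < 1 - x := by linarith
    rw [le_sub_iff_add_le, ← le_sub_iff_add_le', inv_eq_one_div, div_le_iff₀ h1]
    nlinarith [mul_nonneg (sq_nonneg x) (show (0 : ℝ) ≤ 1 - 2 * x by linarith)]
  have hS1 : ∑ p ∈ S, ((p : ℝ))⁻¹ ≤ Real.log (Real.log a) + B := by
    have h1 : ∑ p ∈ S, ((p : ℝ))⁻¹ ≤ ErdosKac.recipSum P :=
      sum_le_sum_of_subset_of_nonneg (fun p hp => mem_filter.2 ⟨mem_Icc.2 ⟨(hSp p hp).pos,
        (mem_range.1 (mem_filter.1 (hS ▸ hp)).1).le⟩, hSp p hp⟩) fun p _ _ => by positivity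
    have h2 := (abs_le.1 (hB P hP.two_le)).2
    have h3 : Real.log (Real.log P) ≤ Real.log (Real.log a) :=
      Real.log_le_log (Real.log_pos (Nat.one_lt_cast.2 hP.one_lt))
        (Real.log_le_log (Nat.cast_pos.2 hP.pos) (Nat.cast_le.2 (Nat.le_of_dvd (by omega) hPd)))
    linarith
  have hS2 : ∑ p ∈ S, ((p : ℝ) ^ 2)⁻¹ ≤ 1 := by
    refine (sum_le_sum_of_subset_of_nonneg (t := Ioc 1 (max P 1)) (fun p hp => mem_Ioc.2
      ⟨(hSp p hp).one_lt, le_max_of_le_left (mem_range.1 (mem_filter.1 (hS ▸ hp)).1).le⟩)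
      fun p _ _ => by positivity).trans ?_
    refine (sum_Ioc_inv_sq_le_sub one_ne_zero (le_max_right P 1)).trans ?_
    rw [Nat.cast_one, inv_one]
    exact sub_le_self _ (by positivity)
  rw [hφ]
  refine le_trans ?_ (prod_le_prod (fun p _ => (Real.exp_pos _).le) hterm)
  rw [← Real.exp_sum, sum_neg_distrib, sum_add_distrib, ← mul_sum]
  have hla : 0 < Real.log a := Real.log_pos (Nat.one_lt_cast.2 (by omega))
  rw [← Real.exp_log hla, ← Real.exp_sub, Real.exp_le_exp]
  linarith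

/-- **Erdős**: `∑ 1 / (a log a)` over a primitive set is bounded absolutely. -/
theorem exists_primitive_sum_le : ∃ C : ℝ, ∀ A : Set ℕ, IsPrimitiveSet A → ∀ F : Finset ℕ,
    (↑F : Set ℕ) ⊆ A → ∑ a ∈ F, 1 / ((a : ℝ) * Real.log a) ≤ C := by
  obtain ⟨c, hc, hshare⟩ := exists_share_le
  refine ⟨1 / c, fun A hA F hF => ?_⟩
  classical
  obtain ⟨G, hG⟩ : ∃ G, G = F.filter (2 ≤ ·) := ⟨_, rfl⟩
  have hsum : ∑ a ∈ F, 1 / ((a : ℝ) * Real.log a) = ∑ a ∈ G, 1 / ((a : ℝ) * Real.log a) := by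
    rw [hG]
    refine (sum_filter_of_ne fun a _ h => ?_).symm
    by_contra h2
    interval_cases a <;> simp at h
  obtain ⟨N, hN⟩ : ∃ N, N = ∏ a ∈ G, belowTop a * a := ⟨_, rfl⟩
  have hG2 : ∀ a ∈ G, 2 ≤ a := fun a ha => (mem_filter.1 (hG ▸ ha)).2
  have hN0 : 0 < N := hN ▸ prod_pos fun a ha =>
    Nat.mul_pos (belowTop_pos a) (by have := hG2 a ha; omega)
  have hdisj : (↑G : Set ℕ).PairwiseDisjoint fun a => claimed a N := fun a ha b hb hab => by
    refine Finset.disjoint_left.2 fun x hx hx' => hab ?_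
    have haA : a ∈ A := hF (mem_filter.1 (hG ▸ mem_coe.1 ha)).1
    have hbA : b ∈ A := hF (mem_filter.1 (hG ▸ mem_coe.1 hb)).1
    rcases le_total (topPrime a) (topPrime b) with h | h
    · rcases dvd_or_dvd_of_claimed (hG2 a ha) (hG2 b hb) hx hx' h with h1 | h1
      · exact hA a haA b hbA h1
      · exact (hA b hbA a haA h1).symm
    · rcases dvd_or_dvd_of_claimed (hG2 b hb) (hG2 a ha) hx' hx h with h1 | h1
      · exact (hA b hbA a haA h1).symm
      · exact hA a haA b hbA h1
  have htotal : ∑ a ∈ G, ((claimed a N).card : ℝ) ≤ N := by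
    rw [← Nat.cast_sum, ← card_biUnion hdisj, Nat.cast_le]
    refine (card_le_card fun x hx => ?_).trans (le_of_eq (show (Icc 1 N).card = N by simp))
    obtain ⟨a, ha, hx⟩ := mem_biUnion.1 hx
    obtain ⟨b, hb, rfl⟩ := mem_image.1 hx
    obtain ⟨hb1, hb2⟩ := mem_Icc.1 (mem_filter.1 hb).1
    refine mem_Icc.2 ⟨Nat.mul_pos (by have := hG2 a ha; omega) hb1, ?_⟩
    rw [mul_comm]
    exact (Nat.mul_le_mul_right a hb2).trans (Nat.div_mul_le_self N a)
  have hterm : ∀ a ∈ G, c * (1 / ((a : ℝ) * Real.log a)) * N ≤ ((claimed a N).card : ℝ) := by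
    intro a ha
    have ha2 := hG2 a ha
    obtain ⟨q, hq⟩ : ∃ q, N = q * belowTop a * a := by
      obtain ⟨q, hq⟩ := hN ▸ dvd_prod_of_mem (fun a => belowTop a * a) ha
      exact ⟨q, hq.trans (by ring)⟩
    rw [hq, card_claimed (by omega)]
    have hQ0 : (0 : ℝ) < belowTop a := Nat.cast_pos.2 (belowTop_pos a)
    have h := mul_le_mul_of_nonneg_right (hshare a ha2)
      (show (0 : ℝ) ≤ q * belowTop a by positivity)
    have ha0 : (a : ℝ) ≠ 0 := Nat.cast_ne_zero.2 (by omega)
    push_cast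
    refine le_of_eq_of_le ?_ (h.trans (le_of_eq ?_))
    · field_simp
    · field_simp
  have h := (sum_le_sum hterm).trans htotal
  rw [← sum_mul, ← mul_sum] at h
  rw [hsum, le_div_iff₀' hc]
  exact le_of_mul_le_mul_right (h.trans (le_of_eq (one_mul _).symm)) (Nat.cast_pos.2 hN0)

theorem summable_primitive {A : Set ℕ} (hA : IsPrimitiveSet A) :
    Summable fun a : A => 1 / (((a : ℕ) : ℝ) * Real.log (a : ℕ)) := by
  obtain ⟨C, hC⟩ := exists_primitive_sum_le
  refine summable_of_sum_le (c := C) (fun a => by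
    have := Real.log_natCast_nonneg (a : ℕ)
    positivity) fun u => ?_
  have h := hC A hA (u.map (Function.Embedding.subtype _)) fun a ha => by
    obtain ⟨b, -, rfl⟩ := mem_map.1 (mem_coe.1 ha)
    exact b.2
  rwa [sum_map] at h

/-- **Behrend's theorem, qualitative form**: a primitive set has logarithmic density `0`. -/
theorem tendsto_primitive_log_density {A : Set ℕ} (hA : IsPrimitiveSet A) :
    Tendsto (fun N : ℕ => weightSum A 1 N / Real.log N) atTop (𝓝 0) := by
  classical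
  rw [Metric.tendsto_nhds]
  intro ε hε
  obtain ⟨C, hC⟩ := exists_primitive_sum_le
  obtain ⟨F, hF⟩ := summable_iff_vanishing_norm.1 (summable_primitive hA) (ε / 2) (by positivity)
  obtain ⟨K, hK⟩ : ∃ K, K = F.sup (fun a => (a : ℕ)) + 1 := ⟨_, rfl⟩
  have hlog : Tendsto (fun N : ℕ => Real.log N) atTop atTop :=
    Real.tendsto_log_atTop.comp (tendsto_natCast_atTop_atTop (R := ℝ))
  filter_upwards [hlog.eventually_ge_atTop (max 1 (4 * (K + 1) / ε)), eventually_ge_atTop 1]
    with N hN hN1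
  have hl : 1 ≤ Real.log N := le_of_max_le_left hN
  have hlK := le_of_max_le_right hN
  rw [div_le_iff₀ hε] at hlK
  rw [Real.dist_0_eq_abs, abs_of_nonneg (div_nonneg (weightSum_nonneg A 1 N) (by linarith)),
    div_lt_iff₀ (by linarith), weightSum]
  obtain ⟨T, hT⟩ : ∃ T, T = ((Icc 1 N).filter (· ∈ A)).filter (K < ·) := ⟨_, rfl⟩
  rw [← sum_filter_add_sum_filter_not ((Icc 1 N).filter (· ∈ A)) (K < ·), ← hT]
  have hsmall : ∑ a ∈ ((Icc 1 N).filter (· ∈ A)).filter (¬K < ·), (a : ℝ) ^ (-1 : ℝ) ≤ K := by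
    refine (sum_le_card_nsmul _ _ 1 fun a ha => ?_).trans ?_
    · exact Real.rpow_le_one_of_one_le_of_nonpos
        (Nat.one_le_cast.2 (mem_Icc.1 (mem_filter.1 (mem_filter.1 ha).1).1).1) (by norm_num)
    · rw [nsmul_one, Nat.cast_le]
      refine (card_le_card (t := Icc 1 K) fun a ha => ?_).trans (by simp)
      exact mem_Icc.2 ⟨(mem_Icc.1 (mem_filter.1 (mem_filter.1 ha).1).1).1,
        not_lt.1 (mem_filter.1 ha).2⟩
  have hlarge : ∑ a ∈ T, (a : ℝ) ^ (-1 : ℝ) ≤ ε / 2 * Real.log N := by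
    have hdisj : Disjoint (T.subtype (· ∈ A)) F := Finset.disjoint_left.2 fun a ha haF => by
      have h1 := mem_subtype.1 ha
      rw [hT, mem_filter] at h1
      have h2 : (a : ℕ) ≤ F.sup (fun a => (a : ℕ)) := le_sup (f := fun a : A => (a : ℕ)) haF
      omega
    have h := hF _ hdisj
    rw [sum_subtype_of_mem (fun a : ℕ => 1 / ((a : ℝ) * Real.log a))
      (fun a ha => (mem_filter.1 (mem_filter.1 (hT ▸ ha)).1).2), Real.norm_eq_abs] at h
    have h' := mul_le_mul_of_nonneg_right ((le_abs_self _).trans h.le)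
      (show 0 ≤ Real.log N by linarith)
    refine le_trans ?_ h'
    rw [sum_mul]
    refine sum_le_sum fun a ha => ?_
    rw [hT, mem_filter, mem_filter, mem_Icc] at ha
    have ha2 : (2 : ℝ) ≤ a := Nat.ofNat_le_cast.2 (by omega)
    have hla : 0 < Real.log a := Real.log_pos (by linarith)
    rw [Real.rpow_neg_one, one_div, mul_inv, mul_assoc, inv_mul_eq_div (Real.log a)]
    refine le_mul_of_one_le_right (by positivity) ((one_le_div hla).2 ?_)
    exact Real.log_le_log (by linarith) (Nat.cast_le.2 ha.1.1.2)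
  have : (0 : ℝ) ≤ K := Nat.cast_nonneg K
  linarith [mul_pos hε (show 0 < Real.log N by linarith)]

end FA.SetsOfMultiples

end
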