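import Fermat.Agent.SetsOfMultiples.ZetaWeight
import Mathlib.Analysis.PSeries
import Mathlib.Data.Nat.Periodic
import Mathlib.NumberTheory.Harmonic.Bounds
import Mathlib.Topology.Order.MonotoneConvergence
import Mathlib.Analysis.SpecificLimits.Basic
import Mathlib.Analysis.Complex.ExponentialBounds

/-!
# The theorem of Davenport and Erdős

The multiples of any set have a logarithmic density, which is the limit of the densities of the
multiples of its first elements and the lower density.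
-/

set_option autoImplicit false

noncomputable section

namespace FA.SetsOfMultiples

open Finset Filter
open scoped Topology

/-- The multiples of a set. -/
def multiplesOf (A : Set ℕ) : Set ℕ := {n | ∃ a ∈ A, a ∣ n}

theorem multiplesOf_upward {A : Set ℕ} (a b : ℕ) (ha : a ∈ multiplesOf A) (h : a ∣ b) :
    b ∈ multiplesOf A := by
  obtain ⟨c, hc, hca⟩ := ha
  exact ⟨c, hc, hca.trans h⟩

theorem multiplesOf_mono {A B : Set ℕ} (h : A ⊆ B) : multiplesOf A ⊆ multiplesOf B :=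
  fun _ ⟨a, ha, hn⟩ => ⟨a, h ha, hn⟩

open scoped Classical in
/-- The number of elements of `M` up to `N`. -/
def countUpTo (M : Set ℕ) (N : ℕ) : ℕ := ((Icc 1 N).filter (· ∈ M)).card

theorem countUpTo_le (M : Set ℕ) (N : ℕ) : countUpTo M N ≤ N := by
  classical
  exact (card_filter_le _ _).trans (le_of_eq (by simp))

theorem countUpTo_mono {M M' : Set ℕ} (h : M ⊆ M') (N : ℕ) : countUpTo M N ≤ countUpTo M' N := by
  classical
  exact card_le_card fun n hn => mem_filter.2 ⟨(mem_filter.1 hn).1, h (mem_filter.1 hn).2⟩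

open scoped Classical in
/-- The elements of `A` up to `k`. -/
def firstPart (A : Set ℕ) (k : ℕ) : Finset ℕ := (Icc 1 k).filter (· ∈ A)

theorem firstPart_pos (A : Set ℕ) (k a : ℕ) (ha : a ∈ firstPart A k) : 0 < a := by
  classical
  exact (mem_Icc.1 (mem_filter.1 ha).1).1

theorem firstPart_subset (A : Set ℕ) (k : ℕ) : (↑(firstPart A k) : Set ℕ) ⊆ A := by
  classical
  exact fun a ha => (mem_filter.1 ha).2

theorem firstPart_mono (A : Set ℕ) {k l : ℕ} (h : k ≤ l) : firstPart A k ⊆ firstPart A l := by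
  classical
  exact filter_subset_filter _ (Icc_subset_Icc le_rfl h)

theorem mem_multiplesOf_firstPart {A : Set ℕ} {n k : ℕ} (hn : 0 < n) (hnk : n ≤ k)
    (h : n ∈ multiplesOf A) : n ∈ multiplesOf ↑(firstPart A k) := by
  classical
  obtain ⟨a, ha, han⟩ := h
  exact ⟨a, mem_filter.2 ⟨mem_Icc.2 ⟨Nat.pos_of_dvd_of_pos han hn,
    (Nat.le_of_dvd hn han).trans hnk⟩, ha⟩, han⟩

/-- The density of the multiples of finitely many numbers. -/
def finiteDensity (F : Finset ℕ) : ℝ :=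
  (countUpTo (multiplesOf ↑F) (∏ a ∈ F, a) : ℝ) / ((∏ a ∈ F, a : ℕ) : ℝ)

theorem finiteDensity_nonneg (F : Finset ℕ) : 0 ≤ finiteDensity F := by
  rw [finiteDensity]
  positivity

theorem finiteDensity_le_one (F : Finset ℕ) : finiteDensity F ≤ 1 :=
  div_le_one_of_le₀ (Nat.cast_le.2 (countUpTo_le _ _)) (Nat.cast_nonneg _)

/-- The multiples of finitely many numbers are periodic. -/
theorem abs_countUpTo_sub_le {F : Finset ℕ} (hF : ∀ a ∈ F, 0 < a) (N : ℕ) :
    |(countUpTo (multiplesOf ↑F) N : ℝ) - finiteDensity F * N| ≤ ((∏ a ∈ F, a : ℕ) : ℝ) := by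
  classical
  obtain ⟨L, hL⟩ : ∃ L, L = ∏ a ∈ F, a := ⟨_, rfl⟩
  obtain ⟨M, hM⟩ : ∃ M, M = multiplesOf (↑F : Set ℕ) := ⟨_, rfl⟩
  have hL0 : 0 < L := hL ▸ prod_pos hF
  rw [← hL, finiteDensity, ← hL, ← hM]
  have hper : Function.Periodic (fun n => n ∈ M) L := fun n => propext <| by
    rw [hM]
    refine exists_congr fun a => and_congr_right fun ha => ?_
    exact (Nat.dvd_add_iff_left (hL ▸ dvd_prod_of_mem (fun a : ℕ => a) ha)).symm
  have hstep : ∀ m, countUpTo M (m + L) = countUpTo M m + countUpTo M L := fun m => by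
    have e1 : ((Ico (m + 1) (m + 1 + L)).filter (· ∈ M)).card =
        ((Ico 1 (1 + L)).filter (· ∈ M)).card := by
      rw [Nat.filter_Ico_card_eq_of_periodic _ _ _ hper,
        Nat.filter_Ico_card_eq_of_periodic _ _ _ hper]
    have e2 : Icc 1 (m + L) = Icc 1 m ∪ Ico (m + 1) (m + 1 + L) := by
      ext n; simp only [mem_union, mem_Icc, mem_Ico]; omega
    have e3 : Icc 1 L = Ico 1 (1 + L) := by ext n; simp only [mem_Icc, mem_Ico]; omega
    rw [countUpTo, countUpTo, countUpTo, e3, ← e1, e2, filter_union, card_union_of_disjoint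
      (Finset.disjoint_filter_filter (Finset.disjoint_left.2 fun n hn hn' => by
        simp only [mem_Icc, mem_Ico] at hn hn'; omega))]
  have hmul : ∀ q r, countUpTo M (q * L + r) = q * countUpTo M L + countUpTo M r := fun q r => by
    induction q with
    | zero => simp
    | succ q ih =>
      rw [show (q + 1) * L + r = q * L + r + L by ring, hstep, ih]
      ring
  have hdm : N = N / L * L + N % L := (Nat.div_add_mod' N L).symm
  have hc : (countUpTo M N : ℝ) = ((N / L : ℕ) : ℝ) * countUpTo M L + countUpTo M (N % L) := by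
    conv_lhs => rw [hdm, hmul]
    push_cast
    rfl
  have hN : (N : ℝ) = ((N / L : ℕ) : ℝ) * L + ((N % L : ℕ) : ℝ) := by exact_mod_cast hdm
  have hr : ((N % L : ℕ) : ℝ) ≤ L := Nat.cast_le.2 (Nat.mod_lt N hL0).le
  have hcr : (countUpTo M (N % L) : ℝ) ≤ ((N % L : ℕ) : ℝ) := Nat.cast_le.2 (countUpTo_le _ _)
  obtain ⟨d, hd⟩ : ∃ d, d = (countUpTo M L : ℝ) / L := ⟨_, rfl⟩
  have hd0 : 0 ≤ d := hd ▸ by positivity
  have hd1 : d ≤ 1 := hd ▸ div_le_one_of_le₀ (Nat.cast_le.2 (countUpTo_le _ _)) (Nat.cast_nonneg _)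
  have e : (countUpTo M L : ℝ) = d * L := by rw [hd]; field_simp
  have e2 : d * (N : ℝ) = ((N / L : ℕ) : ℝ) * (d * L) + d * ((N % L : ℕ) : ℝ) := by
    rw [hN]; ring
  rw [← hd, hc, e, abs_le]
  have h1 : d * ((N % L : ℕ) : ℝ) ≤ L :=
    (mul_le_of_le_one_left (Nat.cast_nonneg _) hd1).trans hr
  have h2 : 0 ≤ d * ((N % L : ℕ) : ℝ) := by positivity
  constructor <;> linarith [(Nat.cast_nonneg (countUpTo M (N % L)) : (0 : ℝ) ≤ _)]

theorem nonpos_of_forall_mul_le {x C : ℝ} (h : ∀ N : ℕ, x * N ≤ C) : x ≤ 0 := by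
  by_contra hx
  obtain ⟨N, hN⟩ := exists_nat_gt (C / x)
  rw [div_lt_iff₀ (not_le.1 hx)] at hN
  linarith [h N]

theorem finiteDensity_mono {F G : Finset ℕ} (hG : ∀ a ∈ G, 0 < a) (h : F ⊆ G) :
    finiteDensity F ≤ finiteDensity G := by
  refine sub_nonpos.1 (nonpos_of_forall_mul_le
    (C := ((∏ a ∈ F, a : ℕ) : ℝ) + ((∏ a ∈ G, a : ℕ) : ℝ)) fun N => ?_)
  have h1 := abs_le.1 (abs_countUpTo_sub_le (fun a ha => hG a (h ha)) N)
  have h2 := abs_le.1 (abs_countUpTo_sub_le hG N)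
  have h3 : (countUpTo (multiplesOf ↑F) N : ℝ) ≤ countUpTo (multiplesOf ↑G) N :=
    Nat.cast_le.2 (countUpTo_mono (multiplesOf_mono (coe_subset.2 h)) N)
  linarith

/-- The limit of the densities of the multiples of the first elements. -/
def supDensity (A : Set ℕ) : ℝ := ⨆ k, finiteDensity (firstPart A k)

theorem bddAbove_densities (A : Set ℕ) :
    BddAbove (Set.range fun k => finiteDensity (firstPart A k)) :=
  ⟨1, fun _ ⟨_, hk⟩ => hk ▸ finiteDensity_le_one _⟩

theorem finiteDensity_le_sup (A : Set ℕ) (k : ℕ) :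
    finiteDensity (firstPart A k) ≤ supDensity A := le_ciSup (bddAbove_densities A) k

theorem supDensity_nonneg (A : Set ℕ) : 0 ≤ supDensity A :=
  (finiteDensity_nonneg _).trans (finiteDensity_le_sup A 0)

theorem tendsto_finiteDensity (A : Set ℕ) :
    Tendsto (fun k => finiteDensity (firstPart A k)) atTop (𝓝 (supDensity A)) :=
  tendsto_atTop_ciSup
    (fun _ l hkl => finiteDensity_mono (firstPart_pos A l) (firstPart_mono A hkl))
    (bddAbove_densities A)

/-- Abel summation for decreasing weights. -/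
theorem sum_mul_le_of_partial_le {c w : ℕ → ℝ} {L : ℝ} (hS : ∀ N, ∑ n ∈ Icc 1 N, c n ≤ L)
    (hw0 : ∀ n, 1 ≤ n → 0 ≤ w n) (hw : ∀ n, 1 ≤ n → w (n + 1) ≤ w n) (N : ℕ) :
    ∑ n ∈ Icc 1 N, c n * w n ≤ L * w 1 := by
  have hL : 0 ≤ L := by simpa using hS 0
  rcases Nat.eq_zero_or_pos N with rfl | hN
  · simpa using mul_nonneg hL (hw0 1 le_rfl)
  suffices h : ∀ N, 1 ≤ N → ∑ n ∈ Icc 1 N, c n * w n ≤
      L * (w 1 - w N) + (∑ n ∈ Icc 1 N, c n) * w N by
    have h1 := h N hN
    have h2 := mul_le_mul_of_nonneg_right (hS N) (hw0 N hN)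
    linarith
  intro N hN
  induction N, hN using Nat.le_induction with
  | base => simp
  | succ m hm ih =>
    rw [sum_Icc_succ_top (by omega), sum_Icc_succ_top (by omega)]
    have := mul_le_mul_of_nonneg_right (hS m) (sub_nonneg.2 (hw m hm))
    linarith

theorem sum_indicator_mul (M : Set ℕ) (w : ℕ → ℝ) (d : ℝ) (N : ℕ)
    [DecidablePred (· ∈ M)] :
    ∑ n ∈ Icc 1 N, ((if n ∈ M then 1 else 0) - d) * w n =
      ∑ n ∈ (Icc 1 N).filter (· ∈ M), w n - d * ∑ n ∈ Icc 1 N, w n := by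
  simp only [sub_mul, sum_sub_distrib, ite_mul, one_mul, zero_mul, ← sum_filter, mul_sum]

/-- The weights on the multiples of finitely many numbers. -/
theorem abs_weightSum_sub_le {F : Finset ℕ} (hF : ∀ a ∈ F, 0 < a) {s : ℝ} (hs : 0 ≤ s) (N : ℕ) :
    |weightSum (multiplesOf ↑F) s N - finiteDensity F * weightSum Set.univ s N| ≤
      ((∏ a ∈ F, a : ℕ) : ℝ) := by
  classical
  obtain ⟨c, hc⟩ : ∃ c : ℕ → ℝ, c = fun n =>
      (if n ∈ multiplesOf (↑F : Set ℕ) then (1 : ℝ) else 0) - finiteDensity F := ⟨_, rfl⟩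
  have hw0 : ∀ n : ℕ, 1 ≤ n → 0 ≤ (n : ℝ) ^ (-s) := fun n _ => by positivity
  have hw : ∀ n : ℕ, 1 ≤ n → ((n + 1 : ℕ) : ℝ) ^ (-s) ≤ (n : ℝ) ^ (-s) := fun n hn =>
    Real.rpow_le_rpow_of_nonpos (Nat.cast_pos.2 hn) (Nat.cast_le.2 (Nat.le_succ n)) (by linarith)
  have hsum : ∀ m, ∑ n ∈ Icc 1 m, c n =
      (countUpTo (multiplesOf ↑F) m : ℝ) - finiteDensity F * m := fun m => by
    rw [hc]
    simp [countUpTo, sum_sub_distrib, sum_boole, mul_comm]
  have hup := sum_mul_le_of_partial_le (c := c) (w := fun n => (n : ℝ) ^ (-s))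
    (fun m => (hsum m).le.trans (abs_le.1 (abs_countUpTo_sub_le hF m)).2) hw0 hw N
  have hlo := sum_mul_le_of_partial_le (c := fun n => -c n) (w := fun n => (n : ℝ) ^ (-s))
    (L := ((∏ a ∈ F, a : ℕ) : ℝ)) (fun m => by
      rw [sum_neg_distrib, hsum]
      linarith [(abs_le.1 (abs_countUpTo_sub_le hF m)).1]) hw0 hw N
  simp only [neg_mul, sum_neg_distrib, Nat.cast_one, Real.one_rpow, mul_one] at hup hlo
  rw [hc, sum_indicator_mul (multiplesOf (↑F : Set ℕ))] at hup hlo
  rw [weightSum_univ, weightSum, abs_le]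
  constructor <;> linarith

theorem weightSum_univ_one_bounds (N : ℕ) : Real.log (N + 1) ≤ weightSum Set.univ 1 N ∧
    weightSum Set.univ 1 N ≤ 1 + Real.log N := by
  have e : ∀ N : ℕ, weightSum Set.univ 1 N = ((harmonic N : ℚ) : ℝ) := fun N => by
    induction N with
    | zero => simp [weightSum_univ, harmonic]
    | succ n ih =>
      rw [weightSum_univ, sum_Icc_succ_top (by omega), ← weightSum_univ, ih, harmonic_succ]
      push_cast
      rw [Real.rpow_neg_one]
  rw [e]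
  refine ⟨?_, harmonic_le_one_add_log N⟩
  have h := log_add_one_le_harmonic N
  push_cast at h
  exact h

theorem exists_zetaR_ge (R : ℝ) {s : ℝ} (hs : 1 < s) : ∃ σ, 1 < σ ∧ σ ≤ s ∧ R ≤ zetaR σ := by
  obtain ⟨N, hN⟩ := exists_nat_gt (Real.exp (2 * R))
  have hN0 : (0 : ℝ) < N := (Real.exp_pos _).trans hN
  have hlogN : 0 ≤ Real.log N := Real.log_natCast_nonneg N
  refine ⟨min s (1 + Real.log 2 / (Real.log N + 1)), lt_min hs (lt_add_of_pos_right _
    (div_pos (Real.log_pos one_lt_two) (by linarith))), min_le_left _ _, ?_⟩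
  obtain ⟨σ, hσ⟩ : ∃ σ, σ = min s (1 + Real.log 2 / (Real.log N + 1)) := ⟨_, rfl⟩
  have hσ1 : 1 < σ := hσ ▸ lt_min hs (lt_add_of_pos_right _
    (div_pos (Real.log_pos one_lt_two) (by linarith)))
  rw [← hσ]
  refine le_trans ?_ (weightSum_le_zetaR Set.univ hσ1 N)
  have h1 : (σ - 1) * Real.log N ≤ Real.log 2 := by
    refine (mul_le_mul_of_nonneg_right (show σ - 1 ≤ Real.log 2 / (Real.log N + 1) by
      rw [hσ]; linarith [min_le_right s (1 + Real.log 2 / (Real.log N + 1))]) hlogN).trans ?_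
    rw [div_mul_eq_mul_div, div_le_iff₀ (by linarith)]
    linarith [Real.log_nonneg one_le_two]
  have h2 : ∀ n ∈ Icc 1 N, (n : ℝ) ^ (-1 : ℝ) / 2 ≤ (n : ℝ) ^ (-σ) := fun n hn => by
    obtain ⟨hn1, hn2⟩ := mem_Icc.1 hn
    have hn0 : (0 : ℝ) < n := Nat.cast_pos.2 hn1
    rw [Real.rpow_def_of_pos hn0, Real.rpow_def_of_pos hn0, div_eq_mul_inv,
      ← Real.exp_log (show (0 : ℝ) < 2⁻¹ by norm_num), ← Real.exp_add, Real.exp_le_exp,
      Real.log_inv]
    have h3 := mul_le_mul_of_nonneg_left (Real.log_le_log hn0 (Nat.cast_le.2 hn2))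
      (show 0 ≤ σ - 1 by linarith)
    linarith
  rw [weightSum_univ]
  refine le_trans ?_ (sum_le_sum h2)
  rw [← sum_div, le_div_iff₀ two_pos, ← weightSum_univ]
  refine le_trans ?_ (weightSum_univ_one_bounds N).1
  rw [Real.le_log_iff_exp_le (by linarith), mul_comm]
  linarith

/-- **The multiples of a set carry at most its share of the weights.** -/
theorem weightSum_le_sup (A : Set ℕ) {s : ℝ} (hs : 1 < s) (E : ℕ) :
    weightSum (multiplesOf A) s E ≤ supDensity A * zetaR s := by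
  classical
  have h0 : weightSum (multiplesOf A) s E ≤ weightSum (multiplesOf ↑(firstPart A E)) s E := by
    refine sum_le_sum_of_subset_of_nonneg (fun n hn => ?_) fun n _ _ => by positivity
    obtain ⟨h1, h2⟩ := mem_filter.1 hn
    obtain ⟨h3, h4⟩ := mem_Icc.1 h1
    exact mem_filter.2 ⟨h1, mem_multiplesOf_firstPart h3 h4 h2⟩
  refine h0.trans (le_of_forall_pos_le_add fun η hη => ?_)
  have hz := zetaR_pos hs
  obtain ⟨e, he⟩ : ∃ e, e = η / zetaR s := ⟨_, rfl⟩
  have he0 : 0 < e := he ▸ div_pos hη hz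
  obtain ⟨σ, hσ1, hσs, hσ⟩ := exists_zetaR_ge (((∏ a ∈ firstPart A E, a : ℕ) : ℝ) / e) hs
  rw [div_le_iff₀ he0] at hσ
  have hd := finiteDensity_le_sup A E
  have hB : ∀ N, weightSum (multiplesOf ↑(firstPart A E)) σ N ≤
      (supDensity A + e) * zetaR σ := fun N => by
    have h1 := (abs_le.1 (abs_weightSum_sub_le (firstPart_pos A E) (s := σ) (by linarith) N)).2
    have h2 := mul_le_mul hd (weightSum_le_zetaR Set.univ hσ1 N) (weightSum_nonneg _ _ _)
      (supDensity_nonneg A)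
    linarith
  have h3 := weightSum_mul_zetaR_le hσ1 hσs multiplesOf_upward hB E
  rw [show (supDensity A + e) * zetaR σ * zetaR s = (supDensity A + e) * zetaR s * zetaR σ by
    ring] at h3
  refine (le_of_mul_le_mul_right h3 (zetaR_pos hσ1)).trans (le_of_eq ?_)
  rw [he, add_mul, div_mul_cancel₀ _ hz.ne']

/-- **The multiples of the later elements alone are few, logarithmically.** -/
theorem weightSum_diff_le (A : Set ℕ) (k N : ℕ) :
    weightSum (multiplesOf A) 1 N - weightSum (multiplesOf ↑(firstPart A k)) 1 N ≤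
      3 * ((supDensity A - finiteDensity (firstPart A k)) * (2 + Real.log N) +
        ((∏ a ∈ firstPart A k, a : ℕ) : ℝ)) := by
  classical
  obtain ⟨s, hs⟩ : ∃ s, s = 1 + 1 / (Real.log N + 1) := ⟨_, rfl⟩
  have hlogN : 0 ≤ Real.log N := Real.log_natCast_nonneg N
  have hs1 : 1 < s := hs ▸ lt_add_of_pos_right _ (by positivity)
  have hz : zetaR s ≤ 2 + Real.log N := zetaR_le_of_forall hs1 fun m =>
    (weightSum_univ_le_log hs1 m).trans (le_of_eq (by
      rw [hs, add_sub_cancel_left, one_div_one_div]; ring))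
  obtain ⟨Mk, hMk⟩ : ∃ Mk, Mk = multiplesOf (↑(firstPart A k) : Set ℕ) := ⟨_, rfl⟩
  obtain ⟨L, hL⟩ : ∃ L : ℝ, L = ((∏ a ∈ firstPart A k, a : ℕ) : ℝ) := ⟨_, rfl⟩
  have hsub : Mk ⊆ multiplesOf A := hMk ▸ multiplesOf_mono (firstPart_subset A k)
  have hdiff : ∀ (r : ℝ) (m : ℕ), weightSum (multiplesOf A) r m - weightSum Mk r m =
      ∑ n ∈ (Icc 1 m).filter (fun n => n ∈ multiplesOf A ∧ n ∉ Mk), (n : ℝ) ^ (-r) := fun r m => by
    rw [sub_eq_iff_eq_add, weightSum, weightSum, ← sum_union (Finset.disjoint_left.2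
      fun n hn hn' => (mem_filter.1 hn).2.2 (mem_filter.1 hn').2)]
    refine sum_congr (Finset.ext fun n => ?_) fun _ _ => rfl
    simp only [mem_filter, mem_union]
    by_cases h : n ∈ Mk
    · exact ⟨fun h1 => Or.inr ⟨h1.1, h⟩, fun h1 => h1.elim (fun h2 => ⟨h2.1, h2.2.1⟩)
        fun h2 => ⟨h2.1, hsub h⟩⟩
    · exact ⟨fun h1 => Or.inl ⟨h1.1, h1.2, h⟩, fun h1 => h1.elim (fun h2 => ⟨h2.1, h2.2.1⟩)
        fun h2 => absurd h2.2 h⟩
  rw [← hMk, ← hL]
  obtain ⟨X, hX⟩ : ∃ X, X = weightSum (multiplesOf A) s N - weightSum Mk s N := ⟨_, rfl⟩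
  have hstep : weightSum (multiplesOf A) 1 N - weightSum Mk 1 N ≤ 3 * X := by
    rw [hX, hdiff, hdiff, mul_sum]
    refine sum_le_sum fun n hn => ?_
    obtain ⟨hn1, hn2⟩ := mem_Icc.1 (mem_filter.1 hn).1
    have hn0 : (0 : ℝ) < n := Nat.cast_pos.2 hn1
    rw [show (-1 : ℝ) = (s - 1) + -s by ring, Real.rpow_add hn0]
    refine mul_le_mul_of_nonneg_right ?_ (by positivity)
    rw [Real.rpow_def_of_pos hn0, hs, add_sub_cancel_left, mul_one_div]
    refine (Real.exp_le_exp.2 ?_).trans Real.exp_one_lt_three.le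
    rw [div_le_one (by linarith)]
    linarith [Real.log_le_log hn0 (Nat.cast_le.2 hn2)]
  refine hstep.trans (mul_le_mul_of_nonneg_left ?_ three_pos.le)
  have hd0 := finiteDensity_nonneg (firstPart A k)
  have hkey : ∀ m, finiteDensity (firstPart A k) * weightSum Set.univ s m ≤
      supDensity A * zetaR s + L - X := fun m => by
    have h1 := weightSum_le_sup A hs1 (max m N)
    have h2 := (abs_le.1 (abs_weightSum_sub_le (firstPart_pos A k) (s := s) (by linarith)
      (max m N))).1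
    rw [← hMk, ← hL] at h2
    have h3 : X ≤ weightSum (multiplesOf A) s (max m N) - weightSum Mk s (max m N) := by
      rw [hX, hdiff, hdiff]
      exact sum_le_sum_of_subset_of_nonneg
        (filter_subset_filter _ (Icc_subset_Icc le_rfl (le_max_right m N)))
        fun n _ _ => by positivity
    have h4 := mul_le_mul_of_nonneg_left (weightSum_mono Set.univ s (le_max_left m N)) hd0
    linarith
  have hfin : finiteDensity (firstPart A k) * zetaR s ≤ supDensity A * zetaR s + L - X := by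
    rcases hd0.eq_or_lt with h | h
    · rw [← h, zero_mul]
      have h5 := hkey 0
      rwa [← h, zero_mul] at h5
    · rw [← le_div_iff₀' h]
      exact zetaR_le_of_forall hs1 fun m => by rw [le_div_iff₀' h]; exact hkey m
  have hgap := sub_nonneg.2 (finiteDensity_le_sup A k)
  have h6 := mul_le_mul_of_nonneg_left hz hgap
  linarith

theorem weightSum_mono_set {M M' : Set ℕ} (h : M ⊆ M') (s : ℝ) (N : ℕ) :
    weightSum M s N ≤ weightSum M' s N := by
  classical
  exact sum_le_sum_of_subset_of_nonneg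
    (fun n hn => mem_filter.2 ⟨(mem_filter.1 hn).1, h (mem_filter.1 hn).2⟩)
    fun n _ _ => by positivity

/-- **Davenport and Erdős: the logarithmic density.** -/
theorem tendsto_log_density (A : Set ℕ) :
    Tendsto (fun N : ℕ => weightSum (multiplesOf A) 1 N / Real.log N) atTop
      (𝓝 (supDensity A)) := by
  rw [Metric.tendsto_nhds]
  intro ε hε
  obtain ⟨k, hk⟩ := ((tendsto_finiteDensity A).eventually
    (Metric.ball_mem_nhds _ (show 0 < ε / 8 by positivity))).exists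
  rw [Real.dist_eq, abs_lt] at hk
  obtain ⟨L, hL⟩ : ∃ L : ℝ, L = ((∏ a ∈ firstPart A k, a : ℕ) : ℝ) := ⟨_, rfl⟩
  have hlog : Tendsto (fun N : ℕ => Real.log N) atTop atTop :=
    Real.tendsto_log_atTop.comp (tendsto_natCast_atTop_atTop (R := ℝ))
  filter_upwards [hlog.eventually_ge_atTop (max 1 ((7 + 4 * |L|) * 2 / ε)),
    eventually_ge_atTop 1] with N hN hN1
  have hN0 : 1 ≤ Real.log N := le_of_max_le_left hN
  have hNε := le_of_max_le_right hN
  rw [div_le_iff₀ hε] at hNε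
  rw [Real.dist_eq, abs_lt]
  have hlow := (abs_le.1 (abs_weightSum_sub_le (firstPart_pos A k) (s := 1) zero_le_one N))
  rw [← hL] at hlow
  have hmono := weightSum_mono_set (multiplesOf_mono (firstPart_subset A k)) 1 N
  have hH := weightSum_univ_one_bounds N
  have hH1 : Real.log N ≤ weightSum Set.univ 1 N :=
    le_trans (Real.log_le_log (Nat.cast_pos.2 hN1) (by linarith)) hH.1
  have hdiff := weightSum_diff_le A k N
  rw [← hL] at hdiff
  obtain ⟨d, hd⟩ : ∃ d, d = finiteDensity (firstPart A k) := ⟨_, rfl⟩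
  rw [← hd] at hk hlow hdiff
  have hd1 : d ≤ supDensity A := hd ▸ finiteDensity_le_sup A k
  have hd0 : 0 ≤ d := hd ▸ finiteDensity_nonneg _
  have hd2 : d ≤ 1 := hd ▸ finiteDensity_le_one _
  have hLabs := le_abs_self L
  have m1 := mul_le_mul_of_nonneg_left hH1 hd0
  have m2 := mul_le_mul_of_nonneg_left hH.2 hd0
  have hgap1 : supDensity A - d ≤ 1 := by
    have : supDensity A ≤ 1 := ciSup_le fun j => finiteDensity_le_one _
    linarith
  have m3 := mul_le_mul_of_nonneg_right (show supDensity A - d ≤ ε / 8 by linarith [hk.1])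
    (show 0 ≤ Real.log N by linarith)
  constructor
  · rw [lt_sub_iff_add_lt, lt_div_iff₀ (by linarith)]
    linarith [mul_pos hε (show 0 < Real.log N by linarith)]
  · rw [sub_lt_iff_lt_add, div_lt_iff₀ (by linarith)]
    linarith [mul_nonneg (sub_nonneg.2 hd1) (show 0 ≤ Real.log N by linarith)]

/-- The lower density is at least the limit. -/
theorem eventually_countUpTo_ge (A : Set ℕ) {ε : ℝ} (hε : 0 < ε) :
    ∀ᶠ N : ℕ in atTop, (supDensity A - ε) * N ≤ countUpTo (multiplesOf A) N := by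
  obtain ⟨k, hk⟩ := ((tendsto_finiteDensity A).eventually
    (Metric.ball_mem_nhds _ (show 0 < ε / 2 by positivity))).exists
  rw [Real.dist_eq, abs_lt] at hk
  obtain ⟨L, hL⟩ : ∃ L : ℝ, L = ((∏ a ∈ firstPart A k, a : ℕ) : ℝ) := ⟨_, rfl⟩
  filter_upwards [eventually_ge_atTop ⌈L * 2 / ε⌉₊] with N hN
  have hN' : L * 2 / ε ≤ N := (Nat.le_ceil _).trans (Nat.cast_le.2 hN)
  rw [div_le_iff₀ hε] at hN'
  have h1 := (abs_le.1 (abs_countUpTo_sub_le (firstPart_pos A k) N)).1
  rw [← hL] at h1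
  have h2 : (countUpTo (multiplesOf ↑(firstPart A k)) N : ℝ) ≤ countUpTo (multiplesOf A) N :=
    Nat.cast_le.2 (countUpTo_mono (multiplesOf_mono (firstPart_subset A k)) N)
  have h3 := mul_le_mul_of_nonneg_right hk.1.le (Nat.cast_nonneg N)
  linarith

/-- **Davenport and Erdős: the lower density is no larger.** -/
theorem frequently_countUpTo_le (A : Set ℕ) {ε : ℝ} (hε : 0 < ε) :
    ∃ᶠ N : ℕ in atTop, (countUpTo (multiplesOf A) N : ℝ) ≤ (supDensity A + ε) * N := by
  classical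
  by_contra hcon
  obtain ⟨N₀, hN₀⟩ := eventually_atTop.1 (not_frequently.1 hcon)
  obtain ⟨d, hd⟩ : ∃ d, d = supDensity A + ε := ⟨_, rfl⟩
  have hd0 : 0 ≤ d := hd ▸ add_nonneg (supDensity_nonneg A) hε.le
  have hlow : ∀ N : ℕ, d * weightSum Set.univ 1 N - d * N₀ ≤
      weightSum (multiplesOf A) 1 N := fun N => by
    have h := sum_mul_le_of_partial_le
      (c := fun n => -((if n ∈ multiplesOf A then (1 : ℝ) else 0) - d))
      (w := fun n : ℕ => (n : ℝ) ^ (-1 : ℝ)) (L := d * N₀) (fun m => ?_) (fun n _ => by positivity)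
      (fun n hn => Real.rpow_le_rpow_of_nonpos (Nat.cast_pos.2 hn)
        (Nat.cast_le.2 (Nat.le_succ n)) (by norm_num)) N
    · simp only [neg_mul, sum_neg_distrib, Nat.cast_one, Real.one_rpow, mul_one] at h
      rw [sum_indicator_mul (multiplesOf A)] at h
      rw [weightSum_univ, weightSum]
      linarith
    · simp only [sum_neg_distrib, sum_sub_distrib, sum_boole, sum_const, Nat.card_Icc,
        Nat.add_sub_cancel, nsmul_eq_mul]
      have hc : (0 : ℝ) ≤ ((Icc 1 m).filter (· ∈ multiplesOf A)).card := Nat.cast_nonneg _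
      rcases le_or_gt N₀ m with hm | hm
      · have := not_le.1 (hN₀ m hm)
        rw [countUpTo, ← hd] at this
        have : 0 ≤ d * N₀ := by positivity
        linarith
      · have : (m : ℝ) ≤ N₀ := Nat.cast_le.2 hm.le
        have := mul_le_mul_of_nonneg_left this hd0
        linarith
  have hlog : Tendsto (fun N : ℕ => Real.log N) atTop atTop :=
    Real.tendsto_log_atTop.comp (tendsto_natCast_atTop_atTop (R := ℝ))
  obtain ⟨N, h1, h2, h3⟩ := (((tendsto_log_density A).eventually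
    (Metric.ball_mem_nhds _ (show 0 < ε / 2 by positivity))).and
      ((hlog.eventually_ge_atTop (max 1 (4 * (d * N₀) / ε))).and (eventually_ge_atTop 1))).exists
  have hN0 : 1 ≤ Real.log N := le_of_max_le_left h2
  have hNε := le_of_max_le_right h2
  rw [div_le_iff₀ hε] at hNε
  rw [Real.dist_eq, abs_lt] at h1
  have h4 := h1.2
  rw [sub_lt_iff_lt_add, div_lt_iff₀ (by linarith)] at h4
  have h5 : Real.log N ≤ weightSum Set.univ 1 N :=
    (Real.log_le_log (Nat.cast_pos.2 h3) (by linarith)).trans (weightSum_univ_one_bounds N).1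
  have h6 := mul_le_mul_of_nonneg_left h5 hd0
  have h7 := hlow N
  rw [hd] at h6 h7 hNε
  have h8 : 0 < ε * Real.log N := mul_pos hε (by linarith)
  linarith

/-- **The lower natural density of a set of multiples.** -/
theorem liminf_countUpTo (A : Set ℕ) :
    liminf (fun N : ℕ => (countUpTo (multiplesOf A) N : ℝ) / N) atTop = supDensity A := by
  have hb : IsBoundedUnder (· ≥ ·) atTop
      fun N : ℕ => (countUpTo (multiplesOf A) N : ℝ) / N :=
    isBoundedUnder_of_eventually_ge (a := (0 : ℝ)) (Eventually.of_forall fun N => by positivity)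
  have hcb : IsCoboundedUnder (· ≥ ·) atTop
      fun N : ℕ => (countUpTo (multiplesOf A) N : ℝ) / N :=
    (isBoundedUnder_of_eventually_le (a := (1 : ℝ)) (Eventually.of_forall fun N =>
      div_le_one_of_le₀ (Nat.cast_le.2 (countUpTo_le _ N)) (Nat.cast_nonneg _))).isCoboundedUnder_ge
  refine le_antisymm (le_of_forall_pos_le_add fun ε hε => ?_)
    (le_of_forall_pos_le_add fun ε hε => ?_)
  · refine liminf_le_of_frequently_le (((frequently_countUpTo_le A hε).and_eventually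
      (eventually_ge_atTop 1)).mono fun N ⟨h, h1⟩ => ?_) hb
    rw [div_le_iff₀ (Nat.cast_pos.2 h1)]
    exact h
  · rw [← sub_le_iff_le_add]
    refine le_liminf_of_le hcb ?_
    filter_upwards [eventually_countUpTo_ge A hε, eventually_ge_atTop 1] with N h h1
    rw [le_div_iff₀ (Nat.cast_pos.2 h1)]
    exact h

open scoped Classical in
/-- One step of a chain. -/
theorem exists_chain_step {B : Set ℕ}
    (h : ∃ δ : ℝ, 0 < δ ∧ ∃ᶠ N : ℕ in atTop, δ * Real.log N ≤ weightSum B 1 N) :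
    ∃ a ∈ B, ∃ δ : ℝ, 0 < δ ∧
      ∃ᶠ N : ℕ in atTop, δ * Real.log N ≤ weightSum {b | b ∈ B ∧ a ∣ b ∧ a < b} 1 N := by
  obtain ⟨δ, hδ, hfreq⟩ := h
  obtain ⟨k, hk⟩ := ((tendsto_finiteDensity B).eventually
    (Metric.ball_mem_nhds _ (show 0 < δ / 12 by positivity))).exists
  rw [Real.dist_eq, abs_lt] at hk
  obtain ⟨F, hF⟩ : ∃ F, F = firstPart B k := ⟨_, rfl⟩
  obtain ⟨η, hη⟩ : ∃ η : ℝ, η = δ / (4 * (F.card + 1)) := ⟨_, rfl⟩
  have hη0 : 0 < η := hη ▸ by positivity
  by_contra hcon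
  have hev : ∀ᶠ N : ℕ in atTop, ∀ a ∈ F,
      weightSum {b | b ∈ B ∧ a ∣ b ∧ a < b} 1 N ≤ η * Real.log N :=
    (eventually_all_finset F).2 fun a ha => by
      have ha' : a ∈ B := firstPart_subset B k (hF ▸ ha)
      refine (not_frequently.1 fun hfa => hcon ⟨a, ha', η, hη0, hfa⟩).mono fun N hN => ?_
      exact (not_le.1 hN).le
  have hlog : Tendsto (fun N : ℕ => Real.log N) atTop atTop :=
    Real.tendsto_log_atTop.comp (tendsto_natCast_atTop_atTop (R := ℝ))
  obtain ⟨L, hL⟩ : ∃ L : ℝ, L = ((∏ a ∈ F, a : ℕ) : ℝ) := ⟨_, rfl⟩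
  have hL0 : 0 ≤ L := hL ▸ Nat.cast_nonneg _
  obtain ⟨N, h1, h2, h3, h4⟩ := (hfreq.and_eventually (hev.and
    ((hlog.eventually_ge_atTop (max 1 (4 * (F.card + δ + 3 * L) / δ))).and
      (eventually_ge_atTop 1)))).exists
  have hN0 : 1 ≤ Real.log N := le_of_max_le_left h3
  have hNε := le_of_max_le_right h3
  rw [div_le_iff₀ hδ] at hNε
  have hsplit : weightSum B 1 N ≤ (∑ a ∈ F, (weightSum {b | b ∈ B ∧ a ∣ b ∧ a < b} 1 N + 1)) +
      (weightSum (multiplesOf B) 1 N - weightSum (multiplesOf ↑F) 1 N) := by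
    simp only [weightSum]
    obtain ⟨w, hw⟩ : ∃ w : ℕ → ℝ, w = fun n : ℕ => (n : ℝ) ^ (-1 : ℝ) := ⟨_, rfl⟩
    have hw0 : ∀ n, 0 ≤ w n := fun n => by rw [hw]; positivity
    have e : ∀ S : Finset ℕ, ∑ n ∈ S, (n : ℝ) ^ (-1 : ℝ) = ∑ n ∈ S, w n := fun S => by rw [hw]
    simp only [e, sum_filter, ← sum_sub_distrib]
    have hone : ∀ a ∈ F, ∑ n ∈ Icc 1 N, (if n = a then w n else 0) ≤ 1 := fun a ha => by
      rw [sum_ite_eq']
      split_ifs
      · rw [hw]
        refine Real.rpow_le_one_of_one_le_of_nonpos (Nat.one_le_cast.2 ?_) (by norm_num)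
        exact firstPart_pos B k a (hF ▸ ha)
      · exact zero_le_one
    refine le_trans ?_ (add_le_add (sum_le_sum fun a ha => add_le_add le_rfl (hone a ha)) le_rfl)
    simp only [← sum_add_distrib]
    rw [sum_comm, ← sum_add_distrib]
    refine sum_le_sum fun n _ => ?_
    have hite : ∀ (p : Prop) (i : Decidable p), 0 ≤ @ite ℝ p i (w n) 0 := fun p _ => by
      split_ifs <;> linarith [hw0 n]
    by_cases hnB : n ∈ B
    · have hnM : n ∈ multiplesOf B := ⟨n, hnB, dvd_rfl⟩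
      rw [if_pos hnB, if_pos hnM]
      by_cases hnF : n ∈ multiplesOf (↑F : Set ℕ)
      · obtain ⟨a, ha, han⟩ := hnF
        rw [if_pos ⟨a, ha, han⟩]
        refine le_trans ?_ (add_le_add (single_le_sum (fun _ _ => add_nonneg (hite _ _) (hite _ _))
          ha) (le_of_eq (sub_self (w n)).symm))
        rw [add_zero]
        by_cases hna : n = a
        · rw [if_pos hna]
          split_ifs <;> linarith [hw0 n]
        · rw [if_neg hna, add_zero]
          rcases Nat.eq_zero_or_pos n with h0 | h0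
          · rw [h0] at hnB ⊢
            rw [hw]
            simp only [Nat.cast_zero, Real.zero_rpow (show (-1 : ℝ) ≠ 0 by norm_num)]
            split_ifs <;> norm_num
          · rw [if_pos (show n ∈ ({b | b ∈ B ∧ a ∣ b ∧ a < b} : Set ℕ) from
              ⟨hnB, han, lt_of_le_of_ne (Nat.le_of_dvd h0 han) (Ne.symm hna)⟩)]
      · rw [if_neg hnF, sub_zero]
        exact le_add_of_nonneg_left (sum_nonneg fun _ _ => add_nonneg (hite _ _) (hite _ _))
    · rw [if_neg hnB]
      refine add_nonneg (sum_nonneg fun _ _ => add_nonneg (hite _ _) (hite _ _)) (sub_nonneg.2 ?_)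
      by_cases hnF : n ∈ multiplesOf (↑F : Set ℕ)
      · rw [if_pos hnF, if_pos (multiplesOf_mono (hF ▸ firstPart_subset B k) hnF)]
      · rw [if_neg hnF]
        split_ifs <;> linarith [hw0 n]
  have h5 : ∑ a ∈ F, (weightSum {b | b ∈ B ∧ a ∣ b ∧ a < b} 1 N + 1) ≤
      (F.card : ℝ) * (η * Real.log N) + F.card := by
    rw [sum_add_distrib, sum_const, nsmul_one]
    refine add_le_add ((sum_le_card_nsmul _ _ _ h2).trans ?_) le_rfl
    rw [nsmul_eq_mul]
  have h6 : (F.card : ℝ) * η ≤ δ / 4 := by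
    rw [hη, mul_div_assoc', div_le_div_iff₀ (by positivity) (by norm_num)]
    linarith [Nat.cast_nonneg (α := ℝ) F.card]
  have h7 := weightSum_diff_le B k N
  rw [← hF, ← hL] at h7
  rw [← hF] at hk
  have h8 := mul_le_mul_of_nonneg_right (show supDensity B - finiteDensity F ≤ δ / 12 by
    linarith [hk.1]) (show 0 ≤ 2 + Real.log N by linarith)
  have h9 := mul_le_mul_of_nonneg_right h6 (show 0 ≤ Real.log N by linarith)
  linarith [mul_pos hδ (show 0 < Real.log N by linarith)]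

/-- **Davenport and Erdős: chains.** -/
theorem exists_divisibility_chain {A : Set ℕ}
    (h : ∃ δ : ℝ, 0 < δ ∧ ∃ᶠ N : ℕ in atTop, δ * Real.log N ≤ weightSum A 1 N) :
    ∃ f : ℕ → ℕ, StrictMono f ∧ (∀ i, f i ∈ A) ∧ ∀ i, f i ∣ f (i + 1) := by
  classical
  obtain ⟨P, hP⟩ : ∃ P : Set ℕ → Prop, P = fun B =>
      ∃ δ : ℝ, 0 < δ ∧ ∃ᶠ N : ℕ in atTop, δ * Real.log N ≤ weightSum B 1 N := ⟨_, rfl⟩
  have hstep : ∀ B : {B : Set ℕ // P B}, ∃ a, ∃ B' : {B : Set ℕ // P B},
      a ∈ (B : Set ℕ) ∧ (B' : Set ℕ) = {b | b ∈ (B : Set ℕ) ∧ a ∣ b ∧ a < b} := by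
    rintro ⟨B, hB⟩
    rw [hP] at hB
    obtain ⟨a, ha, h'⟩ := exists_chain_step hB
    exact ⟨a, ⟨{b | b ∈ B ∧ a ∣ b ∧ a < b}, by rw [hP]; exact h'⟩, ha, rfl⟩
  choose a next ha hnext using hstep
  obtain ⟨B, hB0, hBs⟩ : ∃ B : ℕ → {B : Set ℕ // P B},
      B 0 = ⟨A, by rw [hP]; exact h⟩ ∧ ∀ i, B (i + 1) = next (B i) :=
    ⟨fun i => Nat.rec ⟨A, by rw [hP]; exact h⟩ (fun _ => next) i, rfl, fun _ => rfl⟩
  have hsub : ∀ i, (B i : Set ℕ) ⊆ A := fun i => by
    induction i with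
    | zero => rw [hB0]
    | succ i ih =>
      rw [hBs, hnext]
      exact fun b hb => ih hb.1
  have hlink : ∀ i, a (B i) ∣ a (B (i + 1)) ∧ a (B i) < a (B (i + 1)) := fun i => by
    have h1 := ha (B (i + 1))
    rw [show (B (i + 1) : Set ℕ) = _ from (congrArg Subtype.val (hBs i)).trans (hnext (B i))] at h1
    exact h1.2
  exact ⟨fun i => a (B i), strictMono_nat_of_lt_succ fun i => (hlink i).2,
    fun i => hsub i (ha (B i)), fun i => (hlink i).1⟩

end FA.SetsOfMultiples

end
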