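import Fermat.Agent.SetsOfMultiples.DavenportErdos
import Fermat.Agent.ErdosKac.Mertens

/-!
# Erdős's theorem on divisors in `(T, 2 T]` and Besicovitch's example

If `n = a b` with `a ∈ (T, 2 T]`, then `a`, `b` and `n` cannot all have the typical number
`μ = ∑ 1 / p` of prime divisors in `(y, T]`. So few integers have such a divisor, and the multiples
of the union of sparse intervals `(T, 2 T]` have lower density `≤ 1 / 4`, upper `≥ 1 / 2`.
-/

set_option autoImplicit false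

noncomputable section

namespace FA.SetsOfMultiples

open Finset Filter
open scoped Topology

/-- The primes of `(y, T]`. -/
def midPrimes (y T : ℕ) : Finset ℕ := (Ioc y T).filter Nat.Prime

/-- The number of prime divisors in `(y, T]`. -/
def midOmega (y T n : ℕ) : ℝ := ((midPrimes y T).filter (· ∣ n)).card

/-- `∑ 1 / p` over `(y, T]`. -/
def midMass (y T : ℕ) : ℝ := ∑ p ∈ midPrimes y T, ((p : ℝ))⁻¹

/-- The integers up to `N` with an atypical number of such divisors. -/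
def atypical (y T N : ℕ) : Finset ℕ :=
  open scoped Classical in
  (Icc 1 N).filter fun n => midMass y T / 4 ≤ |midOmega y T n - midMass y T|

/-- **Turán and Kubilius.** -/
theorem sum_sq_midOmega_sub_le (y T N : ℕ) :
    ∑ n ∈ Icc 1 N, (midOmega y T n - midMass y T) ^ 2 ≤
      midMass y T * N + 2 * midMass y T * (midPrimes y T).card := by
  obtain ⟨P, hP⟩ : ∃ P, P = midPrimes y T := ⟨_, rfl⟩
  obtain ⟨μ, hμ⟩ : ∃ μ, μ = midMass y T := ⟨_, rfl⟩
  have hμ0 : 0 ≤ μ := hμ ▸ sum_nonneg fun p _ => by positivity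
  have hprime : ∀ p ∈ P, p.Prime := fun p hp => (mem_filter.1 (hP ▸ hp)).2
  have hω : ∀ n, midOmega y T n = ∑ p ∈ P, if p ∣ n then (1 : ℝ) else 0 := fun n => by
    rw [midOmega, ← hP, sum_boole]
  have hdiv : ∀ d : ℕ, ∑ n ∈ Icc 1 N, (if d ∣ n then (1 : ℝ) else 0) = ((N / d : ℕ) : ℝ) :=
    fun d => by
      rw [sum_boole, show Icc 1 N = Ioc 0 N from rfl, Nat.Ioc_filter_dvd_card_eq_div]
  have h1 : μ * N - P.card ≤ ∑ n ∈ Icc 1 N, midOmega y T n := by
    simp only [hω]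
    rw [sum_comm, hμ, midMass, ← hP, sum_mul, card_eq_sum_ones, Nat.cast_sum, ← sum_sub_distrib]
    refine sum_le_sum fun p hp => ?_
    rw [hdiv, Nat.cast_one]
    have hp0 : (0 : ℝ) < p := Nat.cast_pos.2 (hprime p hp).pos
    have h : (N : ℝ) < ((N / p : ℕ) : ℝ) * p + p := by
      exact_mod_cast Nat.lt_div_mul_add (hprime p hp).pos
    rw [inv_mul_eq_div, sub_le_iff_le_add, div_le_iff₀ hp0]
    linarith
  have h2 : ∑ n ∈ Icc 1 N, midOmega y T n ^ 2 ≤ (μ ^ 2 + μ) * N := by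
    simp only [hω, sq, sum_mul_sum]
    rw [sum_comm]
    have e : ∀ p q n : ℕ, ((if p ∣ n then (1 : ℝ) else 0) * if q ∣ n then (1 : ℝ) else 0) =
        if p.lcm q ∣ n then 1 else 0 := fun p q n => by
      simp only [Nat.lcm_dvd_iff]
      split_ifs <;> simp_all
    refine le_trans (sum_le_sum fun p hp => le_trans (le_of_eq sum_comm)
      (sum_le_sum fun q hq => ?_)) (le_of_eq (a := ∑ p ∈ P, ∑ q ∈ P,
        ((N : ℝ) * (((p : ℝ))⁻¹ * ((q : ℝ))⁻¹) + if p = q then (N : ℝ) * ((p : ℝ))⁻¹ else 0)) ?_)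
    · simp only [e, hdiv]
      refine le_trans Nat.cast_div_le ?_
      by_cases hpq : p = q
      · subst hpq
        rw [Nat.lcm_self, if_pos rfl, div_eq_mul_inv]
        exact le_add_of_nonneg_left (by positivity)
      · rw [((Nat.coprime_primes (hprime p hp) (hprime q hq)).2 hpq).lcm_eq_mul, if_neg hpq,
          add_zero, Nat.cast_mul, div_eq_mul_inv, mul_inv]
    · rw [hμ, midMass, ← hP]
      simp only [sum_add_distrib, sum_ite_eq, ← mul_sum]
      rw [sum_congr rfl fun p hp => if_pos hp, ← mul_sum, sum_mul_sum]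
      simp only [← mul_sum, ← sum_mul]
      ring
  have e : ∑ n ∈ Icc 1 N, (midOmega y T n - μ) ^ 2 = ∑ n ∈ Icc 1 N, midOmega y T n ^ 2 -
      2 * μ * ∑ n ∈ Icc 1 N, midOmega y T n + μ ^ 2 * N := by
    rw [mul_sum, ← sum_sub_distrib, show μ ^ 2 * N = ∑ _n ∈ Icc 1 N, μ ^ 2 by simp [mul_comm],
      ← sum_add_distrib]
    exact sum_congr rfl fun n _ => by ring
  rw [← hμ, ← hP, e]
  have h3 := mul_le_mul_of_nonneg_left h1 (show 0 ≤ 2 * μ by positivity)
  linarith

theorem card_atypical_le (y T N : ℕ) (hμ : 0 < midMass y T) :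
    ((atypical y T N).card : ℝ) ≤ 16 * ((N : ℝ) + 2 * T) / midMass y T := by
  classical
  have h1 : ((atypical y T N).card : ℝ) * (midMass y T / 4) ^ 2 ≤
      ∑ n ∈ Icc 1 N, (midOmega y T n - midMass y T) ^ 2 := by
    refine le_trans ?_ (sum_le_sum_of_subset_of_nonneg (s := atypical y T N)
      (filter_subset _ _) fun n _ _ => sq_nonneg _)
    rw [← nsmul_eq_mul]
    refine card_nsmul_le_sum _ _ _ fun n hn => ?_
    rw [atypical, mem_filter] at hn
    exact sq_le_sq.2 (by rw [abs_of_nonneg (by positivity)]; exact hn.2)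
  have h2 := h1.trans (sum_sq_midOmega_sub_le y T N)
  have hc : ((midPrimes y T).card : ℝ) ≤ T :=
    Nat.cast_le.2 ((card_filter_le _ _).trans (by simp))
  rw [le_div_iff₀ hμ]
  have h3 : midMass y T * N + 2 * midMass y T * (midPrimes y T).card ≤
      midMass y T * ((N : ℝ) + 2 * T) := by
    have := mul_le_mul_of_nonneg_left hc (show 0 ≤ 2 * midMass y T by positivity)
    linarith
  refine le_of_mul_le_mul_right ?_ hμ
  have h4 := h2.trans h3
  linarith

theorem sum_inv_sq_midPrimes_le {y : ℕ} (hy : 0 < y) (T : ℕ) :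
    ∑ p ∈ midPrimes y T, (((p : ℝ)) ^ 2)⁻¹ ≤ (1 : ℝ) / y := by
  refine (sum_le_sum_of_subset_of_nonneg (filter_subset _ _) fun p _ _ => by positivity).trans ?_
  rcases le_or_gt y T with h | h
  · rw [one_div]
    exact (sum_Ioc_inv_sq_le_sub hy.ne' h).trans (sub_le_self _ (by positivity))
  · rw [Ioc_eq_empty (by omega), sum_empty]
    positivity

/-- The multiples of `(T, 2 T]` up to `N`. -/
theorem countUpTo_interval_le {y T : ℕ} (hy : 0 < y) (hT : 0 < T) (hμ : 0 < midMass y T) (N : ℕ) :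
    (countUpTo (multiplesOf ↑(Ioc T (2 * T))) N : ℝ) ≤
      (96 / midMass y T + (1 : ℝ) / y) * N + 32 * ((T : ℝ) ^ 2 + T) / midMass y T := by
  classical
  obtain ⟨μ, hμdef⟩ : ∃ μ, μ = midMass y T := ⟨_, rfl⟩
  obtain ⟨S, hS⟩ : ∃ S : Finset ℕ, S = (Icc 1 N).filter (· ∈ multiplesOf ↑(Ioc T (2 * T))) :=
    ⟨_, rfl⟩
  obtain ⟨S₁, hS₁⟩ : ∃ S₁, S₁ = atypical y T N := ⟨_, rfl⟩
  obtain ⟨S₂, hS₂⟩ : ∃ S₂ : Finset ℕ, S₂ = (((Ioc T (2 * T)).filter fun a =>
      μ / 4 ≤ |midOmega y T a - μ|).biUnion fun a => (Icc 1 N).filter (a ∣ ·)) := ⟨_, rfl⟩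
  obtain ⟨S₃, hS₃⟩ : ∃ S₃ : Finset ℕ, S₃ = (Ioc T (2 * T)).biUnion fun a =>
      (atypical y T (N / a)).image (a * ·) := ⟨_, rfl⟩
  obtain ⟨S₄, hS₄⟩ : ∃ S₄ : Finset ℕ, S₄ = (midPrimes y T).biUnion fun p =>
      (Icc 1 N).filter (p ^ 2 ∣ ·) := ⟨_, rfl⟩
  have hsub : S ⊆ S₁ ∪ S₂ ∪ S₃ ∪ S₄ := fun n hn => by
    rw [hS, mem_filter] at hn
    obtain ⟨hnN, a, ha, b, rfl⟩ := hn
    rw [mem_coe] at ha
    obtain ⟨ha1, ha2⟩ := mem_Ioc.1 ha
    obtain ⟨hn1, hn2⟩ := mem_Icc.1 hnN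
    by_contra hcon
    simp only [mem_union, not_or, hS₁, hS₂, hS₃, hS₄, mem_biUnion, not_exists, not_and,
      mem_filter, mem_image] at hcon
    obtain ⟨⟨⟨h1, h2⟩, h3⟩, h4⟩ := hcon
    simp only [atypical, mem_filter, not_and, ← hμdef] at h1 h3
    have hb : b ∈ Icc 1 (N / a) := by
      refine mem_Icc.2 ⟨Nat.pos_of_ne_zero fun h => by simp [h] at hn1, ?_⟩
      rw [Nat.le_div_iff_mul_le (by omega), mul_comm]
      exact hn2
    have ha' : |midOmega y T a - μ| < μ / 4 := not_le.1 fun h => h2 a ⟨ha, h⟩ hnN ⟨b, rfl⟩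
    have hb' : |midOmega y T b - μ| < μ / 4 := not_le.1 fun h => h3 a ha b ⟨hb, h⟩ rfl
    have hn' : |midOmega y T (a * b) - μ| < μ / 4 := not_le.1 fun h => h1 hnN h
    have hsum : midOmega y T (a * b) = midOmega y T a + midOmega y T b := by
      rw [midOmega, midOmega, midOmega, ← Nat.cast_add, ← card_union_of_disjoint]
      · refine congrArg (fun s => ((Finset.card s : ℕ) : ℝ)) (Finset.ext fun p => ?_)
        simp only [mem_union, mem_filter]
        constructor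
        · rintro ⟨hp, hpd⟩
          exact ((mem_filter.1 hp).2.dvd_mul.1 hpd).imp (fun h => ⟨hp, h⟩) fun h => ⟨hp, h⟩
        · rintro (⟨hp, h⟩ | ⟨hp, h⟩)
          · exact ⟨hp, h.mul_right b⟩
          · exact ⟨hp, h.mul_left a⟩
      · refine Finset.disjoint_left.2 fun p hp hp' => ?_
        obtain ⟨hp, hpa⟩ := mem_filter.1 hp
        exact h4 p hp hnN (sq p ▸ mul_dvd_mul hpa (mem_filter.1 hp').2)
    rw [hsum, abs_lt] at hn'
    rw [abs_lt] at ha' hb'
    linarith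
  have hc : (S.card : ℝ) ≤ S₁.card + S₂.card + S₃.card + S₄.card := by
    exact_mod_cast (card_le_card hsub).trans ((card_union_le _ _).trans (add_le_add_left
      ((card_union_le _ _).trans (add_le_add_left (card_union_le _ _) _)) _))
  have hN0 : (0 : ℝ) ≤ N := Nat.cast_nonneg N
  have hT0 : (0 : ℝ) < T := Nat.cast_pos.2 hT
  have hμ0 : 0 < μ := hμdef ▸ hμ
  have c1 : (S₁.card : ℝ) ≤ 16 * ((N : ℝ) + 2 * T) / μ := hS₁ ▸ hμdef ▸ card_atypical_le y T N hμ
  have c2 : (S₂.card : ℝ) ≤ 64 * (N : ℝ) / μ := by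
    have hbad : ((((Ioc T (2 * T)).filter fun a => μ / 4 ≤ |midOmega y T a - μ|).card : ℕ) : ℝ) ≤
        16 * ((2 * T : ℕ) + 2 * (T : ℝ)) / μ := by
      refine le_trans (Nat.cast_le.2 (card_le_card fun a ha => ?_))
        (hμdef ▸ card_atypical_le y T (2 * T) hμ)
      obtain ⟨ha, h⟩ := mem_filter.1 ha
      rw [atypical, ← hμdef, mem_filter]
      exact ⟨mem_Icc.2 ⟨by have := (mem_Ioc.1 ha).1; omega, (mem_Ioc.1 ha).2⟩, h⟩
    rw [hS₂]
    refine le_trans (Nat.cast_le.2 card_biUnion_le) ?_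
    rw [Nat.cast_sum]
    refine le_trans (sum_le_card_nsmul _ _ ((N : ℝ) / T) fun a ha => ?_) ?_
    · have ha' := (mem_Ioc.1 (mem_filter.1 ha).1).1
      rw [show Icc 1 N = Ioc 0 N from rfl, Nat.Ioc_filter_dvd_card_eq_div]
      exact Nat.cast_div_le.trans (div_le_div_of_nonneg_left hN0 hT0 (Nat.cast_le.2 ha'.le))
    · rw [nsmul_eq_mul]
      refine (mul_le_mul_of_nonneg_right hbad (by positivity)).trans (le_of_eq ?_)
      push_cast
      field_simp
      ring
  have c3 : (S₃.card : ℝ) ≤ 16 * ((N : ℝ) + 2 * (T : ℝ) ^ 2) / μ := by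
    rw [hS₃]
    refine le_trans (Nat.cast_le.2 card_biUnion_le) ?_
    rw [Nat.cast_sum]
    refine le_trans (sum_le_card_nsmul _ _ (16 * ((N : ℝ) / T + 2 * T) / μ) fun a ha => ?_) ?_
    · refine le_trans (Nat.cast_le.2 card_image_le) ((hμdef ▸ card_atypical_le y T _ hμ).trans ?_)
      refine div_le_div_of_nonneg_right (mul_le_mul_of_nonneg_left (add_le_add ?_ le_rfl)
        (by norm_num)) hμ0.le
      exact Nat.cast_div_le.trans (div_le_div_of_nonneg_left hN0 hT0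
        (Nat.cast_le.2 (mem_Ioc.1 ha).1.le))
    · rw [nsmul_eq_mul, Nat.card_Ioc, show 2 * T - T = T by omega]
      refine le_of_eq ?_
      field_simp
  have c4 : (S₄.card : ℝ) ≤ (1 : ℝ) / y * N := by
    rw [hS₄]
    refine le_trans (Nat.cast_le.2 card_biUnion_le) ?_
    rw [Nat.cast_sum]
    refine le_trans (sum_le_sum fun p _ => ?_)
      (le_of_eq_of_le (mul_sum (midPrimes y T) (fun p : ℕ => (((p : ℝ)) ^ 2)⁻¹) (N : ℝ)).symm
        ((mul_le_mul_of_nonneg_left (sum_inv_sq_midPrimes_le hy T) hN0).trans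
          (le_of_eq (mul_comm _ _))))
    rw [show Icc 1 N = Ioc 0 N from rfl, Nat.Ioc_filter_dvd_card_eq_div, ← div_eq_mul_inv]
    refine Nat.cast_div_le.trans ?_
    push_cast
    exact le_rfl
  rw [countUpTo, ← hS, ← hμdef]
  refine hc.trans ((add_le_add (add_le_add (add_le_add c1 c2) c3) c4).trans (le_of_eq ?_))
  ring

/-- **Erdős**: few integers have a divisor in `(T, 2 T]`. -/
theorem tendsto_interval_density :
    Tendsto (fun T : ℕ => finiteDensity (Ioc T (2 * T))) atTop (𝓝 0) := by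
  rw [Metric.tendsto_nhds]
  intro ε hε
  obtain ⟨C, hC⟩ := ErdosKac.exists_abs_recipSum_sub_le
  obtain ⟨y, hy⟩ : ∃ y : ℕ, y = ⌈2 / ε⌉₊ + 1 := ⟨_, rfl⟩
  have hy' : 2 / ε ≤ y := (Nat.le_ceil _).trans (Nat.cast_le.2 (by omega))
  obtain ⟨R, hR⟩ : ∃ R, R = 400 / ε + C + ErdosKac.recipSum y := ⟨_, rfl⟩
  filter_upwards [((Real.tendsto_log_atTop.comp Real.tendsto_log_atTop).comp
    (tendsto_natCast_atTop_atTop (R := ℝ))).eventually_ge_atTop R,
    eventually_ge_atTop (max y 2)] with T hlog hT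
  simp only [Function.comp_apply] at hlog
  have hyT : y ≤ T := le_of_max_le_left hT
  have hT2 : 2 ≤ T := le_of_max_le_right hT
  have hμ : 400 / ε ≤ midMass y T := by
    have e : midMass y T = ErdosKac.recipSum T - ErdosKac.recipSum y := by
      rw [midMass, midPrimes, ErdosKac.recipSum, ErdosKac.recipSum, ErdosKac.primesUpTo,
        ErdosKac.primesUpTo, sum_filter, sum_filter, sum_filter, show Icc 1 T = Ioc 0 T from rfl,
        show Icc 1 y = Ioc 0 y from rfl, ← sum_Ioc_consecutive _ (Nat.zero_le _) hyT]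
      ring
    have := (abs_le.1 (hC T hT2)).1
    rw [e]
    linarith
  have hμ0 : 0 < midMass y T := lt_of_lt_of_le (by positivity) hμ
  have hd : finiteDensity (Ioc T (2 * T)) ≤ 96 / midMass y T + (1 : ℝ) / y := by
    refine sub_nonpos.1 (nonpos_of_forall_mul_le (C := ((∏ a ∈ Ioc T (2 * T), a : ℕ) : ℝ) +
      32 * ((T : ℝ) ^ 2 + T) / midMass y T) fun N => ?_)
    have h1 := (abs_le.1 (abs_countUpTo_sub_le (F := Ioc T (2 * T))
      (fun a ha => by have := (mem_Ioc.1 ha).1; omega) N)).1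
    have h2 := countUpTo_interval_le (by omega) (by omega) hμ0 (N := N) (T := T) (y := y)
    linarith
  rw [Real.dist_0_eq_abs, abs_of_nonneg (finiteDensity_nonneg _)]
  have h1 : 96 / midMass y T ≤ ε / 4 := by
    rw [div_le_iff₀ hμ0]
    rw [div_le_iff₀ hε] at hμ
    linarith
  have h2 : (1 : ℝ) / y ≤ ε / 2 := by
    rw [div_le_iff₀ (lt_of_lt_of_le (by positivity) hy')]
    rw [div_le_iff₀ hε] at hy'
    linarith
  linarith

/-- **Besicovitch**: a set whose multiples have no natural density. -/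
theorem exists_no_density : ∃ A : Set ℕ, supDensity A ≤ 1 / 4 ∧
    (∃ᶠ N : ℕ in atTop, (N : ℝ) / 2 ≤ countUpTo (multiplesOf A) N) ∧
    ¬∃ ℓ, Tendsto (fun N : ℕ => (countUpTo (multiplesOf A) N : ℝ) / N) atTop (𝓝 ℓ) := by
  classical
  have hex : ∀ j : ℕ, ∃ T, j < T ∧ finiteDensity (Ioc T (2 * T)) ≤ 1 / 8 * (1 / 2) ^ j := fun j =>
    (((eventually_gt_atTop j).and (tendsto_interval_density.eventually
      (ge_mem_nhds (show (0 : ℝ) < 1 / 8 * (1 / 2) ^ j by positivity)))).exists)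
  choose T hT hTd using hex
  obtain ⟨A, hA⟩ : ∃ A : Set ℕ, A = {a | ∃ j, a ∈ Ioc (T j) (2 * T j)} := ⟨_, rfl⟩
  have hsup : supDensity A ≤ 1 / 4 := ciSup_le fun k => by
    refine sub_nonpos.1 (nonpos_of_forall_mul_le (C := ((∏ a ∈ firstPart A k, a : ℕ) : ℝ) +
      ∑ j ∈ range k, ((∏ a ∈ Ioc (T j) (2 * T j), a : ℕ) : ℝ)) fun N => ?_)
    have h1 := (abs_le.1 (abs_countUpTo_sub_le (firstPart_pos A k) N)).1
    have h2 : (countUpTo (multiplesOf ↑(firstPart A k)) N : ℝ) ≤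
        ∑ j ∈ range k, (countUpTo (multiplesOf ↑(Ioc (T j) (2 * T j))) N : ℝ) := by
      rw [← Nat.cast_sum, Nat.cast_le]
      simp only [countUpTo]
      refine le_trans (card_le_card fun n hn => ?_) card_biUnion_le
      obtain ⟨hn, a, ha, han⟩ := mem_filter.1 hn
      obtain ⟨hak, haA⟩ := mem_filter.1 (mem_coe.1 ha)
      rw [hA] at haA
      obtain ⟨j, hj⟩ := haA
      have := hT j
      have := (mem_Ioc.1 hj).1
      have := (mem_Icc.1 hak).2
      exact mem_biUnion.2 ⟨j, mem_range.2 (by omega), mem_filter.2 ⟨hn, a, mem_coe.2 hj, han⟩⟩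
    have h3 : ∀ j ∈ range k, (countUpTo (multiplesOf ↑(Ioc (T j) (2 * T j))) N : ℝ) ≤
        1 / 8 * (1 / 2) ^ j * N + ((∏ a ∈ Ioc (T j) (2 * T j), a : ℕ) : ℝ) := fun j _ => by
      have h4 := (abs_le.1 (abs_countUpTo_sub_le (F := Ioc (T j) (2 * T j))
        (fun a ha => by have := (mem_Ioc.1 ha).1; omega) N)).2
      have h5 := mul_le_mul_of_nonneg_right (hTd j) (Nat.cast_nonneg N)
      linarith
    have h6 := h2.trans (sum_le_sum h3)
    rw [sum_add_distrib, ← sum_mul, ← mul_sum] at h6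
    have h7 := mul_le_mul_of_nonneg_right (mul_le_mul_of_nonneg_left
      (sum_geometric_two_le k) (show (0 : ℝ) ≤ 1 / 8 by norm_num)) (Nat.cast_nonneg N)
    linarith
  have hfreq : ∃ᶠ N : ℕ in atTop, (N : ℝ) / 2 ≤ countUpTo (multiplesOf A) N := by
    refine frequently_atTop.2 fun n => ⟨2 * T n, by have := hT n; omega, ?_⟩
    have h1 : T n ≤ countUpTo (multiplesOf A) (2 * T n) := by
      refine le_of_eq_of_le ?_ (card_le_card (s := Ioc (T n) (2 * T n)) fun a ha =>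
        mem_filter.2 ⟨mem_Icc.2 ⟨by have := (mem_Ioc.1 ha).1; omega, (mem_Ioc.1 ha).2⟩,
          a, by rw [hA]; exact ⟨n, ha⟩, dvd_rfl⟩)
      rw [Nat.card_Ioc]
      omega
    push_cast
    linarith [(Nat.cast_le (α := ℝ)).2 h1]
  refine ⟨A, hsup, hfreq, fun ⟨ℓ, hℓ⟩ => ?_⟩
  have h1 : ℓ = supDensity A := hℓ.liminf_eq.symm.trans (liminf_countUpTo A)
  obtain ⟨N, ⟨h2, hN⟩, h3⟩ := ((hfreq.and_eventually (eventually_ge_atTop 1)).and_eventually
    (hℓ.eventually (gt_mem_nhds (show ℓ < 3 / 8 by linarith)))).exists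
  have hN0 : (0 : ℝ) < N := Nat.cast_pos.2 hN
  rw [div_lt_iff₀ hN0] at h3
  linarith

end FA.SetsOfMultiples

end
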