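import Mathlib.NumberTheory.ArithmeticFunction.Moebius
import Mathlib.NumberTheory.ArithmeticFunction.Misc
import Mathlib.Analysis.PSeries
import Mathlib.Analysis.SpecialFunctions.Log.Basic

/-!
# The weights `n ^ (-s)`

For a set closed upwards under divisibility the share of the weights `n ^ (-s)` grows as `s`
decreases: `n ^ (-σ)` is the convolution of `n ^ (-s)` with a nonnegative function for `σ < s`.
-/

set_option autoImplicit false

noncomputable section

namespace FA.SetsOfMultiples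

open Finset Filter
open scoped Topology ArithmeticFunction.Moebius

/-- `n ^ (-s)` as an arithmetic function. -/
def powAF (s : ℝ) : ArithmeticFunction ℝ := ⟨fun n => if n = 0 then 0 else (n : ℝ) ^ (-s), by simp⟩

theorem powAF_apply (s : ℝ) {n : ℕ} (hn : n ≠ 0) : powAF s n = (n : ℝ) ^ (-s) := if_neg hn

theorem powAF_nonneg (s : ℝ) (n : ℕ) : 0 ≤ powAF s n := by
  rcases eq_or_ne n 0 with rfl | hn
  · simp
  · rw [powAF_apply s hn]
    positivity

theorem powAF_mul (s : ℝ) (a b : ℕ) : powAF s (a * b) = powAF s a * powAF s b := by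
  rcases eq_or_ne a 0 with rfl | ha
  · simp
  rcases eq_or_ne b 0 with rfl | hb
  · simp
  rw [powAF_apply s (mul_ne_zero ha hb), powAF_apply s ha, powAF_apply s hb, Nat.cast_mul,
    Real.mul_rpow (Nat.cast_nonneg a) (Nat.cast_nonneg b)]

theorem powAF_one (s : ℝ) : powAF s 1 = 1 := by
  rw [powAF_apply s one_ne_zero, Nat.cast_one, Real.one_rpow]

theorem powAF_isMultiplicative (s : ℝ) : (powAF s).IsMultiplicative :=
  ⟨powAF_one s, fun {a b} _ => powAF_mul s a b⟩

/-- The quotient of `n ^ (-σ)` by `n ^ (-s)`. -/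
def shiftAF (σ s : ℝ) : ArithmeticFunction ℝ :=
  ((μ : ArithmeticFunction ℝ).pmul (powAF s)) * powAF σ

theorem moebius_pmul_mul_self (s : ℝ) :
    ((μ : ArithmeticFunction ℝ).pmul (powAF s)) * powAF s = 1 := by
  ext n
  rw [ArithmeticFunction.mul_apply]
  have e : ∀ x ∈ n.divisorsAntidiagonal,
      ((μ : ArithmeticFunction ℝ).pmul (powAF s)) x.1 * powAF s x.2 =
        (μ x.1 : ℝ) * powAF s n := fun x hx => by
    rw [ArithmeticFunction.pmul_apply, ArithmeticFunction.intCoe_apply,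
      ← (Nat.mem_divisorsAntidiagonal.1 hx).1, powAF_mul, mul_assoc]
  rw [sum_congr rfl e, ← sum_mul,
    Nat.sum_divisorsAntidiagonal (fun d _ => (μ d : ℝ)), ← Int.cast_sum,
    ← ArithmeticFunction.coe_mul_zeta_apply, ArithmeticFunction.moebius_mul_coe_zeta,
    ArithmeticFunction.one_apply, ArithmeticFunction.one_apply]
  split_ifs with h
  · rw [h, powAF_one]; simp
  · simp

theorem shiftAF_mul (σ s : ℝ) : shiftAF σ s * powAF s = powAF σ := by
  rw [shiftAF, mul_comm _ (powAF σ), mul_assoc, moebius_pmul_mul_self, mul_one]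

theorem shiftAF_nonneg {σ s : ℝ} (h : σ ≤ s) (n : ℕ) : 0 ≤ shiftAF σ s n := by
  have hmult : (shiftAF σ s).IsMultiplicative :=
    (ArithmeticFunction.isMultiplicative_moebius.intCast.pmul (powAF_isMultiplicative s)).mul
      (powAF_isMultiplicative σ)
  rcases eq_or_ne n 0 with rfl | hn
  · simp
  rw [hmult.multiplicative_factorization _ hn]
  refine prod_nonneg fun p hp => ?_
  have hpp := Nat.prime_of_mem_primeFactors (show p ∈ n.primeFactors by simpa using hp)
  simp only
  generalize n.factorization p = k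
  rw [shiftAF, ArithmeticFunction.mul_apply,
    Nat.sum_divisorsAntidiagonal
      (fun d e => ((μ : ArithmeticFunction ℝ).pmul (powAF s)) d * powAF σ e),
    Nat.sum_divisors_prime_pow hpp]
  rcases k with - | k
  · simp [powAF_one]
  rw [sum_range_succ', sum_range_succ']
  rw [sum_eq_zero fun i _ => by
    rw [ArithmeticFunction.pmul_apply, ArithmeticFunction.intCoe_apply,
      ArithmeticFunction.moebius_apply_prime_pow hpp (by omega), if_neg (by omega)]
    simp]
  have hpσ : powAF s p ≤ powAF σ p := by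
    rw [powAF_apply s hpp.ne_zero, powAF_apply σ hpp.ne_zero]
    exact Real.rpow_le_rpow_of_exponent_le (Nat.one_le_cast.2 hpp.one_le) (neg_le_neg h)
  have e : p ^ (k + 1) / p ^ (0 + 1) = p ^ k := by
    rw [zero_add, pow_one, pow_succ, Nat.mul_div_cancel _ hpp.pos]
  rw [zero_add, ArithmeticFunction.pmul_apply, ArithmeticFunction.pmul_apply,
    ArithmeticFunction.intCoe_apply, ArithmeticFunction.intCoe_apply, e, zero_add, pow_one,
    pow_zero, Nat.div_one, ArithmeticFunction.moebius_apply_prime hpp,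
    ArithmeticFunction.moebius_apply_one, pow_succ' p k, powAF_mul, powAF_one]
  push_cast
  nlinarith [powAF_nonneg σ (p ^ k)]

open scoped Classical in
/-- `∑_{n ≤ N, n ∈ M} n ^ (-s)`. -/
def weightSum (M : Set ℕ) (s : ℝ) (N : ℕ) : ℝ := ∑ n ∈ (Icc 1 N).filter (· ∈ M), (n : ℝ) ^ (-s)

theorem weightSum_nonneg (M : Set ℕ) (s : ℝ) (N : ℕ) : 0 ≤ weightSum M s N := by
  classical
  exact sum_nonneg fun n _ => by positivity

theorem weightSum_mono (M : Set ℕ) (s : ℝ) {N N' : ℕ} (h : N ≤ N') :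
    weightSum M s N ≤ weightSum M s N' := by
  classical
  exact sum_le_sum_of_subset_of_nonneg (filter_subset_filter _ (Icc_subset_Icc le_rfl h))
    fun n _ _ => by positivity

theorem weightSum_univ (s : ℝ) (N : ℕ) :
    weightSum Set.univ s N = ∑ n ∈ Icc 1 N, (n : ℝ) ^ (-s) := by
  classical
  exact sum_congr (Finset.ext fun n => by simp) fun _ _ => rfl

/-- `ζ s` for real `s`. -/
def zetaR (s : ℝ) : ℝ := ∑' n : ℕ, (n : ℝ) ^ (-s)

theorem summable_zetaR {s : ℝ} (hs : 1 < s) : Summable fun n : ℕ => (n : ℝ) ^ (-s) :=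
  Real.summable_nat_rpow.2 (by linarith)

theorem weightSum_le_zetaR (M : Set ℕ) {s : ℝ} (hs : 1 < s) (N : ℕ) :
    weightSum M s N ≤ zetaR s := by
  classical
  exact (summable_zetaR hs).sum_le_tsum _ fun n _ => by positivity

theorem zetaR_le_of_forall {s B : ℝ} (hs : 1 < s)
    (h : ∀ N, weightSum Set.univ s N ≤ B) : zetaR s ≤ B := by
  classical
  refine (summable_zetaR hs).tsum_le_of_sum_le fun u => ?_
  refine le_trans ?_ (h (u.sup id))
  rw [weightSum_univ, ← sum_filter_of_ne (p := fun n => 1 ≤ n) fun n _ hn =>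
    Nat.one_le_iff_ne_zero.2
    fun h0 => hn (by rw [h0, Nat.cast_zero, Real.zero_rpow (by linarith)])]
  refine sum_le_sum_of_subset_of_nonneg (fun n hn => ?_) fun n _ _ => by positivity
  obtain ⟨h1, h2⟩ := mem_filter.1 hn
  exact mem_Icc.2 ⟨h2, le_sup (f := id) h1⟩

theorem zetaR_pos {s : ℝ} (hs : 1 < s) : 0 < zetaR s :=
  (summable_zetaR hs).tsum_pos (fun n => by positivity) 1 (by simp)

open scoped Classical in
theorem sum_shift_le {σ s : ℝ} (hσs : σ ≤ s) {M : Set ℕ} (hM : ∀ a b, a ∈ M → a ∣ b → b ∈ M)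
    (D E : ℕ) :
    (∑ d ∈ Icc 1 D, shiftAF σ s d) * weightSum M s E ≤ weightSum M σ (D * E) := by
  rw [weightSum, sum_mul_sum, ← sum_product']
  have e : weightSum M σ (D * E) = ∑ n ∈ (Icc 1 (D * E)).filter (· ∈ M),
      ∑ x ∈ n.divisorsAntidiagonal, shiftAF σ s x.1 * powAF s x.2 := by
    refine sum_congr rfl fun n hn => ?_
    rw [← ArithmeticFunction.mul_apply, shiftAF_mul,
      powAF_apply σ (by have := (mem_Icc.1 (mem_filter.1 hn).1).1; omega)]
  rw [e, sum_sigma']
  refine le_trans (le_of_eq (sum_congr rfl fun x hx => ?_))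
    (le_trans (sum_le_sum_of_subset_of_nonneg
      (t := ((Icc 1 (D * E)).filter (· ∈ M)).sigma (fun n => n.divisorsAntidiagonal) |>.image
        fun x => x.2) (f := fun x => shiftAF σ s x.1 * powAF s x.2) (fun x hx => ?_)
      fun x _ _ => mul_nonneg (shiftAF_nonneg hσs _) (powAF_nonneg s _)) (le_of_eq ?_))
  · rw [powAF_apply s]
    have := (mem_Icc.1 (mem_filter.1 (mem_product.1 hx).2).1).1
    omega
  · obtain ⟨hd, he⟩ := mem_product.1 hx
    obtain ⟨he, heM⟩ := mem_filter.1 he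
    obtain ⟨hd1, hd2⟩ := mem_Icc.1 hd
    obtain ⟨he1, he2⟩ := mem_Icc.1 he
    refine mem_image.2 ⟨⟨x.1 * x.2, x⟩, mem_sigma.2 ⟨mem_filter.2 ⟨mem_Icc.2 ?_, ?_⟩, ?_⟩, rfl⟩
    · exact ⟨Nat.one_le_iff_ne_zero.2 (mul_ne_zero (by omega) (by omega)),
        Nat.mul_le_mul hd2 he2⟩
    · exact hM _ _ heM (dvd_mul_left _ _)
    · exact Nat.mem_divisorsAntidiagonal.2 ⟨rfl, mul_ne_zero (by omega) (by omega)⟩
  · refine sum_image fun x hx y hy hxy => ?_
    have h1 := (Nat.mem_divisorsAntidiagonal.1 (mem_sigma.1 hx).2).1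
    have h2 := (Nat.mem_divisorsAntidiagonal.1 (mem_sigma.1 hy).2).1
    refine Sigma.ext ?_ (heq_of_eq hxy)
    rw [← h1, ← h2, hxy]

theorem sum_powAF (σ : ℝ) (N : ℕ) :
    ∑ n ∈ Icc 1 N, powAF σ n = weightSum Set.univ σ N := by
  classical
  rw [weightSum_univ]
  exact sum_congr rfl fun n hn => powAF_apply σ (by have := (mem_Icc.1 hn).1; omega)

theorem weightSum_univ_le {σ s : ℝ} (hσs : σ ≤ s) (hs : 1 < s) (N : ℕ) :
    weightSum Set.univ σ N ≤ (∑ d ∈ Icc 1 N, shiftAF σ s d) * zetaR s := by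
  classical
  have h0 : ∀ x : ℕ × ℕ, 0 ≤ shiftAF σ s x.1 * powAF s x.2 := fun x =>
    mul_nonneg (shiftAF_nonneg hσs _) (powAF_nonneg s _)
  calc weightSum Set.univ σ N
      = ∑ n ∈ Icc 1 N, ∑ x ∈ n.divisorsAntidiagonal, shiftAF σ s x.1 * powAF s x.2 := by
        rw [← sum_powAF]
        refine sum_congr rfl fun n _ => ?_
        rw [← ArithmeticFunction.mul_apply, shiftAF_mul]
    _ ≤ ∑ x ∈ Icc 1 N ×ˢ Icc 1 N, shiftAF σ s x.1 * powAF s x.2 := by
        rw [← sum_biUnion fun n _ m _ hnm => Finset.disjoint_left.2 fun x hx hx' => hnm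
          ((Nat.mem_divisorsAntidiagonal.1 hx).1.symm.trans (Nat.mem_divisorsAntidiagonal.1 hx').1)]
        refine sum_le_sum_of_subset_of_nonneg (fun x hx => ?_) fun x _ _ => h0 x
        obtain ⟨n, hn, hx⟩ := mem_biUnion.1 hx
        obtain ⟨hx, hn0⟩ := Nat.mem_divisorsAntidiagonal.1 hx
        obtain ⟨-, hnN⟩ := mem_Icc.1 hn
        have h1 : x.1 ≠ 0 := fun h => by simp [h] at hx; omega
        have h2 : x.2 ≠ 0 := fun h => by simp [h] at hx; omega
        refine mem_product.2 ⟨mem_Icc.2 ⟨by omega, ?_⟩, mem_Icc.2 ⟨by omega, ?_⟩⟩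
        · exact (Nat.le_mul_of_pos_right _ (by omega)).trans (hx ▸ hnN)
        · exact (Nat.le_mul_of_pos_left _ (by omega)).trans (hx ▸ hnN)
    _ ≤ _ := by
        rw [sum_product]
        simp only
        rw [← sum_mul_sum, sum_powAF]
        exact mul_le_mul_of_nonneg_left (weightSum_le_zetaR _ hs N)
          (sum_nonneg fun d _ => shiftAF_nonneg hσs d)

/-- **The share of an upward closed set grows as `s` decreases.** -/
theorem weightSum_mul_zetaR_le {σ s B : ℝ} (hσ : 1 < σ) (hσs : σ ≤ s) {M : Set ℕ}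
    (hM : ∀ a b, a ∈ M → a ∣ b → b ∈ M) (hB : ∀ N, weightSum M σ N ≤ B) (E : ℕ) :
    weightSum M s E * zetaR σ ≤ B * zetaR s := by
  have hs : 1 < s := hσ.trans_le hσs
  have hB0 : 0 ≤ B := (weightSum_nonneg M σ 0).trans (hB 0)
  rcases (weightSum_nonneg M s E).eq_or_lt with h | h
  · rw [← h, zero_mul]
    exact mul_nonneg hB0 (zetaR_pos hs).le
  · rw [← le_div_iff₀' h]
    refine zetaR_le_of_forall hσ fun N => (weightSum_univ_le hσs hs N).trans ?_
    rw [le_div_iff₀' h, ← mul_assoc, mul_comm (weightSum M s E)]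
    exact mul_le_mul_of_nonneg_right ((sum_shift_le hσs hM N E).trans (hB _)) (zetaR_pos hs).le

theorem weightSum_univ_le_log {s : ℝ} (hs : 1 < s) (N : ℕ) :
    weightSum Set.univ s N ≤ 1 + 1 / (s - 1) := by
  classical
  have key : ∀ n : ℕ, weightSum Set.univ s (n + 1) ≤
      1 + (1 - ((n + 1 : ℕ) : ℝ) ^ (1 - s)) / (s - 1) := fun n => by
    induction n with
    | zero => simp [weightSum]
    | succ n ih =>
      rw [weightSum_univ, sum_Icc_succ_top (by omega)]
      rw [weightSum_univ] at ih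
      obtain ⟨x, hx⟩ : ∃ x : ℝ, x = ((n + 1 : ℕ) : ℝ) := ⟨_, rfl⟩
      obtain ⟨y, hy⟩ : ∃ y : ℝ, y = ((n + 1 + 1 : ℕ) : ℝ) := ⟨_, rfl⟩
      rw [← hx] at ih
      rw [← hy]
      have hx1 : 1 ≤ x := hx ▸ Nat.one_le_cast.2 (by omega)
      have hyx : y = x + 1 := by rw [hy, hx]; push_cast; ring
      have hy0 : 0 < y := by linarith
      have hk : (s - 1) * y ^ (-s) ≤ x ^ (1 - s) - y ^ (1 - s) := by
        have h1 : 1 + (s - 1) / y ≤ (x / y) ^ (1 - s) := by
          have hl : Real.log (x / y) ≤ x / y - 1 :=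
            Real.log_le_sub_one_of_pos (div_pos (by linarith) hy0)
          rw [Real.rpow_def_of_pos (div_pos (by linarith) hy0)]
          refine le_trans ?_ (Real.add_one_le_exp _)
          have h2 := mul_le_mul_of_nonneg_right hl (show 0 ≤ s - 1 by linarith)
          have e : (x / y - 1) * (s - 1) = -((s - 1) / y) := by rw [hyx]; field_simp; ring
          linarith
        rw [Real.div_rpow (by linarith) hy0.le, le_div_iff₀ (by positivity)] at h1
        have e : y ^ (-s) = y ^ (1 - s) / y := by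
          rw [← Real.rpow_sub_one hy0.ne']; ring_nf
        rw [e]
        have e2 : (1 + (s - 1) / y) * y ^ (1 - s) =
            y ^ (1 - s) + (s - 1) * (y ^ (1 - s) / y) := by ring
        linarith
      have hs0 : (0 : ℝ) < s - 1 := by linarith
      have h3 : y ^ (-s) ≤ (x ^ (1 - s) - y ^ (1 - s)) / (s - 1) := by
        rw [le_div_iff₀ hs0]; linarith
      have e : (1 - y ^ (1 - s)) / (s - 1) =
          (1 - x ^ (1 - s)) / (s - 1) + (x ^ (1 - s) - y ^ (1 - s)) / (s - 1) := by ring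
      linarith
  cases N with
  | zero =>
    refine le_trans (le_of_eq ?_) (add_nonneg zero_le_one (one_div_nonneg.2 (by linarith)))
    simp [weightSum]
  | succ n =>
    refine (key n).trans (add_le_add le_rfl (div_le_div_of_nonneg_right ?_ (by linarith)))
    exact sub_le_self _ (by positivity)

end FA.SetsOfMultiples

end
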